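import Mathlib
import Fermat.Prelude.Def_CuspForm_HeckeGaloisRepDatum

/-!
# T-ES, Part D: the interface between Parts A/B/C/E (providers) and Part D (consumer)

`TateDatum N p` packages exactly what Part D needs to know about the `p`-adic Tate module of
`J₀(N)`: a Betti lattice `Λ` with an action of the full Hecke algebra, and for each `n` an action
of `G_ℚ` on `Λ / p ^ n Λ` (transported from `W_{p^n}(ℚ̄, N)`).
-/

set_option autoImplicit false

namespace Fermat.Agent.ESlib.PartD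

/-- The absolute Galois group of `ℚ`. -/
abbrev GQ : Type := AlgebraicClosure ℚ ≃ₐ[ℚ] AlgebraicClosure ℚ

/-- The full Hecke algebra (all `T_ℓ`, `ℓ ∤ N`, all `U_q`, `q ∣ N`) of weight 2 and level `N`. -/
abbrev FullHecke (N : ℕ) [NeZero N] : Type := CuspForm.heckeAlgebra N 2 (∅ : Set ℕ)

/-- `p ^ n Λ` as a `ℤ`-submodule. -/
abbrev powSub (Λ : Type) [AddCommGroup Λ] (p n : ℕ) : Submodule ℤ Λ :=
  LinearMap.range (LinearMap.lsmul ℤ Λ ((p : ℤ) ^ n))

/-- What Part D needs. -/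
structure TateDatum (N : ℕ) [NeZero N] (p : ℕ) : Type 1 where
  /-- the Betti lattice (`Hom_par(Γ₀(N), ℤ)`) -/
  Λ : Type
  [instAddCommGroup : AddCommGroup Λ]
  [instFree : Module.Free ℤ Λ]
  [instFinite : Module.Finite ℤ Λ]
  /-- the Hecke action on the lattice -/
  hecke : FullHecke N →+* Module.End ℤ Λ
  /-- multiplicity: every system of eigenvalues occurs with multiplicity exactly two -/
  eigen : ∀ lam : FullHecke N →+* ℂ,
    Module.finrank ℂ (⨅ t : FullHecke N, LinearMap.ker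
      ((hecke t).baseChange ℂ - lam t • (LinearMap.id : TensorProduct ℤ ℂ Λ →ₗ[ℂ] _))
        : Submodule ℂ (TensorProduct ℤ ℂ Λ)) = 2
  /-- the Galois action on `Λ / p ^ n` -/
  gal : ∀ n : ℕ, GQ →* Module.End ℤ (Λ ⧸ powSub Λ p n)
  /-- compatibility with the projections `Λ / p ^ (n + 1) → Λ / p ^ n` -/
  gal_compat : ∀ (n : ℕ) (σ : GQ) (x y : Λ),
    gal (n + 1) σ (Submodule.Quotient.mk x) = Submodule.Quotient.mk y →
      gal n σ (Submodule.Quotient.mk x) = Submodule.Quotient.mk y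
  /-- Galois commutes with Hecke -/
  gal_hecke : ∀ (n : ℕ) (σ : GQ) (t : FullHecke N) (x y : Λ),
    gal n σ (Submodule.Quotient.mk x) = Submodule.Quotient.mk y →
      gal n σ (Submodule.Quotient.mk (hecke t x)) = Submodule.Quotient.mk (hecke t y)
  /-- each finite level factors through a finite extension -/
  gal_finite : ∀ n : ℕ, GaloisFactorsThroughFiniteLevel (gal n)
  /-- unramified outside `N p` -/
  gal_unram : ∀ (n : ℕ) (ℓ : ℕ), ℓ.Prime → ¬ ℓ ∣ N → ℓ ≠ p →
    ∀ A : ValuationSubring (AlgebraicClosure ℚ), A.LiesOverPrime ℓ →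
      ∀ σ ∈ A.inertiaSubgroupIn ℚ, gal n σ = 1
  /-- Eichler-Shimura: `σ² - T_ℓ σ + ℓ = 0` -/
  gal_frob : ∀ (n : ℕ) (ℓ : ℕ) (hℓ : ℓ.Prime) (hℓN : ¬ ℓ ∣ N), ℓ ≠ p →
    ∀ A : ValuationSubring (AlgebraicClosure ℚ), A.LiesOverPrime ℓ →
      ∀ σ : GQ, A.IsFrobeniusAt σ ℓ → ∀ x y z : Λ,
        gal n σ (Submodule.Quotient.mk x) = Submodule.Quotient.mk y →
        gal n σ (Submodule.Quotient.mk y) = Submodule.Quotient.mk z →
          z - hecke (CuspForm.heckeAlgebra.T hℓ hℓN (Set.notMem_empty ℓ)) y + (ℓ : ℤ) • x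
            ∈ powSub Λ p n

attribute [instance] TateDatum.instAddCommGroup TateDatum.instFree TateDatum.instFinite

end Fermat.Agent.ESlib.PartD
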