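import Mathlib
import Fermat.Prelude.Def_GaloisRep_Adic

/-!
# T-ES, Part D4: the cyclotomic character with values in a complete local ring
-/

set_option autoImplicit false

namespace Fermat.Agent.ESlib.PartD

open IsLocalRing

section Val

variable {K L : Type*} [Field K] [Field L] [Algebra K L] (A : ValuationSubring L)

open scoped Pointwise in
lemma inertia_val (σ : L ≃ₐ[K] L) (hσ : σ ∈ A.inertiaSubgroupIn K) (x : L)
    (hx : A.valuation x ≤ 1) : A.valuation (σ x - x) < 1 := by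
  obtain ⟨τ, hτ, rfl⟩ := Subgroup.mem_map.mp hσ
  rw [A.valuation_le_one_iff] at hx
  have h1 : τ • IsLocalRing.residue A ⟨x, hx⟩ = IsLocalRing.residue A ⟨x, hx⟩ := by
    have := congrArg (fun f => f (IsLocalRing.residue A ⟨x, hx⟩)) (MonoidHom.mem_ker.mp hτ)
    exact this
  rw [← IsLocalRing.ResidueField.residue_smul] at h1
  have h2 : IsLocalRing.residue A (τ • (⟨x, hx⟩ : A) - ⟨x, hx⟩) = 0 := by
    rw [map_sub, h1, sub_self]
  rw [IsLocalRing.residue_eq_zero_iff, A.valuation_lt_one_iff] at h2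
  exact h2

lemma frob_val (σ : L ≃ₐ[K] L) (q : ℕ) (hσ : A.IsFrobeniusAt σ q) (x : L)
    (hx : A.valuation x ≤ 1) : A.valuation (σ x - x ^ q) < 1 := by
  obtain ⟨hdec, hfrob⟩ := hσ
  rw [A.valuation_le_one_iff] at hx
  have h1 := hfrob (IsLocalRing.residue A ⟨x, hx⟩)
  rw [← IsLocalRing.ResidueField.residue_smul, ← map_pow] at h1
  have h2 : IsLocalRing.residue A
      ((⟨σ, hdec⟩ : A.decompositionSubgroup K) • (⟨x, hx⟩ : A) - ⟨x, hx⟩ ^ q) = 0 := by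
    rw [map_sub, h1, sub_self]
  rw [IsLocalRing.residue_eq_zero_iff, A.valuation_lt_one_iff] at h2
  exact h2

lemma val_eq_one_of_pow_eq_one {n : ℕ} (hn : n ≠ 0) {ζ : L} (h : ζ ^ n = 1) :
    A.valuation ζ = 1 := by
  have h1 : A.valuation ζ ^ n = 1 := by rw [← map_pow, h, map_one]
  exact (pow_eq_one_iff.mp h1).resolve_right hn

lemma val_pow_sub_one_lt {ξ : L} (h1 : A.valuation ξ ≤ 1) (h : A.valuation (ξ - 1) < 1) (i : ℕ) :
    A.valuation (ξ ^ i - 1) < 1 := by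
  induction i with
  | zero => simp
  | succ i ih =>
    have : ξ ^ (i + 1) - 1 = ξ * (ξ ^ i - 1) + (ξ - 1) := by ring
    rw [this]
    refine Valuation.map_add_lt _ ?_ h
    rw [map_mul]
    exact lt_of_le_of_lt (mul_le_of_le_one_left' h1) ih

/-- Roots of unity of order prime to the residue characteristic are distinct in the residue
field. -/
lemma eq_of_val_sub_lt_one {n : ℕ} (hn : A.valuation (n : L) = 1) {ζ ζ' : L} (h : ζ ^ n = 1)
    (h' : ζ' ^ n = 1) (hlt : A.valuation (ζ - ζ') < 1) : ζ = ζ' := by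
  have hn0 : n ≠ 0 := by
    rintro rfl
    simp at hn
  have hv' : A.valuation ζ' = 1 := val_eq_one_of_pow_eq_one A hn0 h'
  have hζ'0 : ζ' ≠ 0 := by
    rintro rfl
    simp at hv'
  set ξ := ζ / ζ' with hξ
  have hξn : ξ ^ n = 1 := by rw [hξ, div_pow, h, h', div_one]
  have hξv : A.valuation ξ = 1 := val_eq_one_of_pow_eq_one A hn0 hξn
  have hξ1 : A.valuation (ξ - 1) < 1 := by
    have : ξ - 1 = (ζ - ζ') / ζ' := by rw [hξ]; field_simp
    rw [this, map_div₀, hv', div_one]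
    exact hlt
  by_contra hne
  have hξne : ξ - 1 ≠ 0 := by
    intro h0
    apply hne
    have : ξ = 1 := sub_eq_zero.mp h0
    rw [hξ, div_eq_one_iff_eq hζ'0] at this
    exact this
  have hsum : ∑ i ∈ Finset.range n, ξ ^ i = 0 := by
    have := geom_sum_mul ξ n
    rw [hξn, sub_self] at this
    exact (mul_eq_zero.mp this).resolve_right hξne
  have hnn : (n : L) = -∑ i ∈ Finset.range n, (ξ ^ i - 1) := by
    rw [Finset.sum_sub_distrib, hsum]
    simp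
  have : A.valuation (n : L) < 1 := by
    rw [hnn, Valuation.map_neg]
    exact Valuation.map_sum_lt _ one_ne_zero fun i _ => val_pow_sub_one_lt A hξv.le hξ1 i
  exact absurd hn this.ne

lemma val_natCast_eq_one {ℓ : ℕ} (hA : A.LiesOverPrime ℓ) {n : ℕ} (hn : Nat.Coprime n ℓ) :
    A.valuation (n : L) = 1 := by
  have hle : ∀ m : ℤ, A.valuation (m : L) ≤ 1 := fun m => by
    rw [A.valuation_le_one_iff]; exact intCast_mem A m
  refine le_antisymm (by have := hle n; rwa [Int.cast_natCast] at this) ?_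
  by_contra hlt
  rw [not_le] at hlt
  have hℓ : A.valuation (ℓ : L) < 1 := (A.mem_nonunits_iff).mp hA
  have hb : (n : ℤ) * Nat.gcdA n ℓ + (ℓ : ℤ) * Nat.gcdB n ℓ = 1 := by
    have := Nat.gcd_eq_gcd_ab n ℓ
    rw [hn] at this
    exact_mod_cast this.symm
  have h1 : (1 : L) = (n : L) * (Nat.gcdA n ℓ : L) + (ℓ : L) * (Nat.gcdB n ℓ : L) := by
    exact_mod_cast (congrArg (Int.cast : ℤ → L) hb).symm
  have : A.valuation (1 : L) < 1 := by
    rw [h1]
    refine Valuation.map_add_lt _ ?_ ?_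
    · rw [map_mul]; exact lt_of_le_of_lt (mul_le_of_le_one_right' (hle _)) hlt
    · rw [map_mul]; exact lt_of_le_of_lt (mul_le_of_le_one_right' (hle _)) hℓ
  simp at this

end Val

section Cyclo

local notation "Qb" => AlgebraicClosure ℚ
local notation "GalQ" => (AlgebraicClosure ℚ ≃ₐ[ℚ] AlgebraicClosure ℚ)

variable (p : ℕ) [Fact p.Prime]

instance instEnoughRoots (i : ℕ) : HasEnoughRootsOfUnity Qb (p ^ i) := by
  have : NeZero (p ^ i) := ⟨pow_ne_zero _ (Fact.out : p.Prime).ne_zero⟩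
  have : NeZero ((p ^ i : ℕ) : Qb) := ⟨by exact_mod_cast pow_ne_zero _ (Fact.out : p.Prime).ne_zero⟩
  infer_instance

/-- The `p`-adic cyclotomic character of `G_ℚ`. -/
noncomputable def cycloZp : GalQ →* ℤ_[p]ˣ :=
  (cyclotomicCharacter Qb p).comp (MulSemiringAction.toRingAut GalQ Qb)

lemma cycloZp_spec (σ : GalQ) {n : ℕ} (t : Qb) (ht : t ^ p ^ n = 1) :
    σ t = t ^ ((cycloZp p σ).val.toZModPow n).val :=
  cyclotomicCharacter.spec p (MulSemiringAction.toRingAut GalQ Qb σ) t ht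

lemma cycloZp_eq_of_forall (σ : GalQ) (c : ℤ_[p])
    (h : ∀ (n : ℕ) (t : Qb), t ^ p ^ n = 1 → σ t = t ^ (c.toZModPow n).val) :
    ((cycloZp p σ : ℤ_[p]ˣ) : ℤ_[p]) = c := by
  refine PadicInt.ext_of_toZModPow.mp fun n => ?_
  have : NeZero (p ^ n) := ⟨pow_ne_zero _ (Fact.out : p.Prime).ne_zero⟩
  obtain ⟨ζ, hζ⟩ := HasEnoughRootsOfUnity.exists_primitiveRoot Qb (p ^ n)
  have h1 := cycloZp_spec p σ ζ hζ.pow_eq_one
  rw [h n ζ hζ.pow_eq_one] at h1
  exact (ZMod.val_injective _ (hζ.pow_inj (ZMod.val_lt _) (ZMod.val_lt _) h1)).symm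

lemma cycloZp_eq_natCast (σ : GalQ) (c : ℕ)
    (h : ∀ (n : ℕ) (t : Qb), t ^ p ^ n = 1 → σ t = t ^ c) :
    ((cycloZp p σ : ℤ_[p]ˣ) : ℤ_[p]) = c := by
  refine cycloZp_eq_of_forall p σ c fun n t ht => ?_
  rw [h n t ht, map_natCast, ZMod.val_natCast]
  exact pow_eq_pow_mod c ht

lemma cycloZp_frob {ℓ : ℕ} (hℓ : ℓ.Prime) (hℓp : ℓ ≠ p) (A : ValuationSubring Qb)
    (hA : A.LiesOverPrime ℓ) (σ : GalQ) (hσ : A.IsFrobeniusAt σ ℓ) :
    ((cycloZp p σ : ℤ_[p]ˣ) : ℤ_[p]) = ℓ := by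
  refine cycloZp_eq_natCast p σ ℓ fun n t ht => ?_
  have hcop : Nat.Coprime (p ^ n) ℓ :=
    Nat.Coprime.pow_left n ((Nat.coprime_primes Fact.out hℓ).mpr hℓp.symm)
  have hpn : p ^ n ≠ 0 := pow_ne_zero _ (Fact.out : p.Prime).ne_zero
  refine eq_of_val_sub_lt_one A (val_natCast_eq_one A hA hcop) ?_ ?_
    (frob_val A σ ℓ hσ t (val_eq_one_of_pow_eq_one A hpn ht).le)
  · rw [← map_pow, ht, map_one]
  · rw [← pow_mul, mul_comm, pow_mul, ht, one_pow]

lemma cycloZp_inertia {ℓ : ℕ} (hℓ : ℓ.Prime) (hℓp : ℓ ≠ p) (A : ValuationSubring Qb)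
    (hA : A.LiesOverPrime ℓ) (σ : GalQ) (hσ : σ ∈ A.inertiaSubgroupIn ℚ) :
    cycloZp p σ = 1 := by
  apply Units.ext
  have := cycloZp_eq_natCast p σ 1 fun n t ht => ?_
  · simpa using this
  have hcop : Nat.Coprime (p ^ n) ℓ :=
    Nat.Coprime.pow_left n ((Nat.coprime_primes Fact.out hℓ).mpr hℓp.symm)
  have hpn : p ^ n ≠ 0 := pow_ne_zero _ (Fact.out : p.Prime).ne_zero
  rw [pow_one]
  refine eq_of_val_sub_lt_one A (val_natCast_eq_one A hA hcop) ?_ ht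
    (inertia_val A σ hσ t (val_eq_one_of_pow_eq_one A hpn ht).le)
  rw [← map_pow, ht, map_one]

/-- continuity: `σ` fixing a primitive `p ^ n`-th root of unity has `χ(σ) ≡ 1 mod p ^ n`. -/
lemma cycloZp_sub_one_mem (n : ℕ) : ∃ L : IntermediateField ℚ Qb, FiniteDimensional ℚ L ∧
    ∀ σ : GalQ, (∀ x ∈ L, σ x = x) →
      ((cycloZp p σ : ℤ_[p]ˣ) : ℤ_[p]) - 1 ∈ Ideal.span {(p : ℤ_[p]) ^ n} := by
  have : NeZero (p ^ n) := ⟨pow_ne_zero _ (Fact.out : p.Prime).ne_zero⟩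
  obtain ⟨ζ, hζ⟩ := HasEnoughRootsOfUnity.exists_primitiveRoot Qb (p ^ n)
  refine ⟨IntermediateField.adjoin ℚ {ζ}, IntermediateField.adjoin.finiteDimensional
    ((hζ.isIntegral (Nat.pos_of_neZero _)).tower_top), fun σ hσ => ?_⟩
  rw [← PadicInt.ker_toZModPow, RingHom.mem_ker, map_sub, map_one, sub_eq_zero]
  have h1 := cycloZp_spec p σ ζ hζ.pow_eq_one
  rw [hσ ζ (IntermediateField.mem_adjoin_simple_self ℚ ζ)] at h1
  rcases n with _ | n
  · have : Subsingleton (ZMod (p ^ 0)) := by rw [pow_zero]; infer_instance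
    exact Subsingleton.elim _ _
  · have hlt : 1 < p ^ (n + 1) := Nat.one_lt_pow (by omega) (Fact.out : p.Prime).one_lt
    have : Fact (1 < p ^ (n + 1)) := ⟨hlt⟩
    apply ZMod.val_injective
    rw [ZMod.val_one]
    have h2 : ζ ^ 1 = ζ ^ ((PadicInt.toZModPow (n + 1)) ((cycloZp p σ : ℤ_[p]ˣ) : ℤ_[p])).val := by
      rw [pow_one]; exact h1
    exact (hζ.pow_inj hlt (ZMod.val_lt _) h2).symm


variable {p} {O : Type*} [CommRing O] (ι : ℤ_[p] →+* O)

/-- The cyclotomic character with values in a `ℤ_p`-algebra. -/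
noncomputable def cycloO : GalQ →* Oˣ := (Units.map (ι : ℤ_[p] →* O)).comp (cycloZp p)

lemma cycloO_coe (σ : GalQ) : ((cycloO ι σ : Oˣ) : O) = ι ((cycloZp p σ : ℤ_[p]ˣ) : ℤ_[p]) := rfl

lemma cycloO_frob {ℓ : ℕ} (hℓ : ℓ.Prime) (hℓp : ℓ ≠ p) (A : ValuationSubring Qb)
    (hA : A.LiesOverPrime ℓ) (σ : GalQ) (hσ : A.IsFrobeniusAt σ ℓ) :
    ((cycloO ι σ : Oˣ) : O) = ℓ := by
  rw [cycloO_coe, cycloZp_frob p hℓ hℓp A hA σ hσ, map_natCast]

lemma cycloO_inertia {ℓ : ℕ} (hℓ : ℓ.Prime) (hℓp : ℓ ≠ p) (A : ValuationSubring Qb)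
    (hA : A.LiesOverPrime ℓ) (σ : GalQ) (hσ : σ ∈ A.inertiaSubgroupIn ℚ) :
    cycloO ι σ = 1 := by
  rw [cycloO, MonoidHom.comp_apply, cycloZp_inertia p hℓ hℓp A hA σ hσ, map_one]

lemma cycloO_sub_one_mem (I : Ideal O) (hp : (p : O) ∈ I) (n : ℕ) :
    ∃ L : IntermediateField ℚ Qb, FiniteDimensional ℚ L ∧
      ∀ σ : GalQ, (∀ x ∈ L, σ x = x) → ((cycloO ι σ : Oˣ) : O) - 1 ∈ I ^ n := by
  obtain ⟨L, hL, h⟩ := cycloZp_sub_one_mem p n
  refine ⟨L, hL, fun σ hσ => ?_⟩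
  obtain ⟨c, hc⟩ := Ideal.mem_span_singleton'.mp (h σ hσ)
  have : ((cycloO ι σ : Oˣ) : O) - 1 = ι c * (p : O) ^ n := by
    rw [cycloO_coe, ← map_one ι, ← map_sub, ← hc, map_mul, map_pow, map_natCast]
  rw [this]
  exact Ideal.mul_mem_left _ _ (Ideal.pow_mem_pow hp n)

end Cyclo

section PadicHom

variable (p : ℕ) [Fact p.Prime] (O : Type*) [CommRing O] (I : Ideal O) [IsAdicComplete I O]

/-- A ring which is adically complete for an ideal containing `p` is a `ℤ_p`-algebra. -/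
theorem exists_padicHom (hp : (p : O) ∈ I) : Nonempty (ℤ_[p] →+* O) := by
  have h0 : ∀ n : ℕ, ((p ^ n : ℕ) : O ⧸ I ^ n) = 0 := by
    intro n
    have : ((p ^ n : ℕ) : O ⧸ I ^ n) = Ideal.Quotient.mk (I ^ n) ((p : O) ^ n) := by
      push_cast; rfl
    rw [this, Ideal.Quotient.eq_zero_iff_mem]
    exact Ideal.pow_mem_pow hp n
  let g : ∀ n : ℕ, ZMod (p ^ n) →+* O ⧸ I ^ n := fun n =>
    ZMod.castHom (ringChar.dvd (h0 n)) (O ⧸ I ^ n)
  refine ⟨IsAdicComplete.liftRingHom I (fun n => (g n).comp (PadicInt.toZModPow n)) ?_⟩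
  intro m n hle
  rw [← PadicInt.zmod_cast_comp_toZModPow m n hle, ← RingHom.comp_assoc, ← RingHom.comp_assoc]
  congr 1
  exact Subsingleton.elim _ _

end PadicHom
end Fermat.Agent.ESlib.PartD
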