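import Mathlib

/-!
# T-ES, Part D1: the integral closure of a complete DVR in a finite extension

`O` a complete discrete valuation ring of characteristic zero with finite residue field,
`L` a finite extension of `Frac O`.  Then `integralClosure O L` is again such a ring, finite
over `O`.
-/

set_option autoImplicit false
set_option linter.unusedSectionVars false

namespace Fermat.Agent.ESlib.PartD

open IsLocalRing Polynomial

section Precomplete

variable {R M : Type*} [CommRing R] [AddCommGroup M] [Module R M]

theorem apply_mem_of_mem_smul_top (J : Ideal R) (φ : M →ₗ[R] R) {x : M}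
    (hx : x ∈ J • (⊤ : Submodule R M)) : φ x ∈ J := by
  refine Submodule.smul_induction_on hx ?_ ?_
  · intro r hr n _
    rw [map_smul, smul_eq_mul]
    exact J.mul_mem_right _ hr
  · intro x y hx hy
    rw [map_add]
    exact J.add_mem hx hy

/-- A finite free module over a precomplete ring is precomplete. -/
theorem isPrecomplete_of_free (I : Ideal R) [IsPrecomplete I R] [Module.Free R M]
    [Module.Finite R M] : IsPrecomplete I M := by
  classical
  let b := Module.Free.chooseBasis R M
  refine ⟨fun f hf => ?_⟩
  have hc : ∀ i, ∃ L : R, ∀ n, b.repr (f n) i ≡ L [SMOD (I ^ n • ⊤ : Submodule R R)] := by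
    intro i
    refine IsPrecomplete.prec ‹_› ?_
    intro m n hmn
    have h := hf hmn
    rw [SModEq.sub_mem] at h ⊢
    have h2 := apply_mem_of_mem_smul_top (I ^ m) (b.coord i) h
    rw [map_sub] at h2
    simpa using h2
  choose c hc using hc
  refine ⟨∑ i, c i • b i, fun n => ?_⟩
  rw [SModEq.sub_mem]
  have h1 : f n - ∑ i, c i • b i = ∑ i, (b.repr (f n) i - c i) • b i := by
    conv_lhs => rw [← b.sum_repr (f n)]
    rw [← Finset.sum_sub_distrib]
    exact Finset.sum_congr rfl fun i _ => (sub_smul _ _ _).symm
  rw [h1]
  refine Submodule.sum_mem _ fun i _ => Submodule.smul_mem_smul ?_ Submodule.mem_top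
  have h := hc i n
  rw [SModEq.sub_mem] at h
  simpa using h

end Precomplete

section PowComplete

variable {R : Type*} [CommRing R]

/-- If `R` is precomplete for `J ^ e` (`e ≠ 0`) then it is precomplete for `J`. -/
theorem isPrecomplete_of_pow (J : Ideal R) {e : ℕ} (he : e ≠ 0) [IsPrecomplete (J ^ e) R] :
    IsPrecomplete J R := by
  refine ⟨fun f hf => ?_⟩
  have he1 : 1 ≤ e := Nat.one_le_iff_ne_zero.mpr he
  obtain ⟨L, hL⟩ := IsPrecomplete.prec (I := J ^ e) (M := R) ‹_› (f := fun k => f (e * k)) (by
    intro m n hmn
    have h := hf (m := e * m) (n := e * n) (Nat.mul_le_mul_left e hmn)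
    rw [SModEq.sub_mem] at h ⊢
    rw [← pow_mul]
    exact h)
  refine ⟨L, fun n => ?_⟩
  have hn : n ≤ e * n := Nat.le_mul_of_pos_left n he1
  have h1 := hf hn
  have h2 := hL n
  rw [SModEq.sub_mem] at h1 h2 ⊢
  rw [← pow_mul] at h2
  have h3 : f (e * n) - L ∈ (J ^ n • ⊤ : Submodule R R) := by
    simp only [smul_eq_mul, Ideal.mul_top] at h2 ⊢
    exact Ideal.pow_le_pow_right hn h2
  have := Submodule.add_mem _ h1 h3
  simpa using this

end PowComplete

/-- A Dedekind domain which is adically complete for a nonzero ideal is local. -/
theorem isLocalRing_of_isAdicComplete_of_isDedekindDomain {C : Type*} [CommRing C]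
    [IsDedekindDomain C] (I : Ideal C) (hI0 : I ≠ ⊥) [IsAdicComplete I C] : IsLocalRing C := by
  classical
  have hjac : ∀ P : Ideal C, P.IsMaximal → I ≤ P := fun P hP =>
    (IsAdicComplete.le_jacobson_bot I).trans (sInf_le ⟨bot_le, hP⟩)
  obtain ⟨P1, hP1⟩ := Ideal.exists_maximal C
  refine IsLocalRing.of_unique_max_ideal ⟨P1, hP1, fun P2 hP2 => ?_⟩
  by_contra hne
  have hfin : FiniteMultiplicity P1 I :=
    FiniteMultiplicity.of_not_isUnit (by rw [Ideal.isUnit_iff]; exact hP1.ne_top) hI0
  obtain ⟨J, hJ, hndvd⟩ := hfin.exists_eq_pow_mul_and_not_dvd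
  set e := multiplicity P1 I with he
  rw [Ideal.dvd_iff_le] at hndvd
  have he0 : e ≠ 0 := by
    intro h0
    rw [h0, pow_zero, one_mul] at hJ
    exact hndvd (hJ ▸ hjac P1 hP1)
  have hsup : P1 ⊔ J = ⊤ := by
    by_contra hcon
    exact hndvd ((hP1.eq_of_le hcon le_sup_left) ▸ le_sup_right)
  have hsup' : P1 ^ e ⊔ J = ⊤ := Ideal.pow_sup_eq_top hsup
  obtain ⟨x, hx, y, hy, hxy⟩ := Submodule.mem_sup.mp (hsup' ▸ Submodule.mem_top : (1 : C) ∈ P1 ^ e ⊔ J)
  have hxP1 : x ∈ P1 := Ideal.pow_le_self he0 hx
  have hmul : x * y ∈ I := hJ ▸ Ideal.mul_mem_mul hx hy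
  have hJP2 : J ≤ P2 := by
    have h1 : P1 ^ e * J ≤ P2 := hJ ▸ hjac P2 hP2
    rcases (hP2.isPrime.mul_le).mp h1 with h | h
    · exact absurd (hP1.eq_of_le hP2.ne_top (hP2.isPrime.le_of_pow_le h)).symm hne
    · exact h
  have hhens : HenselianRing C I := inferInstance
  obtain ⟨a, ha, haI⟩ := hhens.is_henselian (X ^ 2 - X) (by monicity!) x
    (by
      have : (X ^ 2 - X : C[X]).eval x = -(x * y) := by
        have : y = 1 - x := by rw [← hxy]; ring
        simp only [eval_sub, eval_pow, eval_X, this]; ring
      rw [this]; exact I.neg_mem hmul)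
    (by
      have h2 : (derivative (X ^ 2 - X : C[X])).eval x = 2 * x - 1 := by
        simp
        left; norm_num
      rw [h2]
      refine IsUnit.of_mul_eq_one (Ideal.Quotient.mk I (2 * x - 1)) ?_
      rw [← map_mul, ← map_one (Ideal.Quotient.mk I), Ideal.Quotient.eq]
      have : y = 1 - x := by rw [← hxy]; ring
      have h3 : (2 * x - 1) * (2 * x - 1) - 1 = -4 * (x * y) := by rw [this]; ring
      rw [h3]; exact I.mul_mem_left _ hmul)
  have ha' : a * (a - 1) = 0 := by
    have := ha
    simp only [IsRoot.def, eval_sub, eval_pow, eval_X] at this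
    rw [← this]; ring
  rcases mul_eq_zero.mp ha' with h0 | h1
  · -- a = 0
    rw [h0, zero_sub] at haI
    have hxP2 : x ∈ P2 := hjac P2 hP2 (by simpa using I.neg_mem haI)
    exact hP2.ne_top ((Ideal.eq_top_iff_one _).mpr (hxy ▸ P2.add_mem hxP2 (hJP2 hy)))
  · have h1' : a = 1 := sub_eq_zero.mp h1
    rw [h1'] at haI
    have : (1 : C) ∈ P1 := by
      have := P1.add_mem (hjac P1 hP1 haI) hxP1
      simpa using this
    exact hP1.ne_top ((Ideal.eq_top_iff_one _).mpr this)

section Main

variable (O : Type*) [CommRing O] [IsDomain O] [IsDiscreteValuationRing O]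
  [IsAdicComplete (maximalIdeal O) O] [CharZero O]
  (L : Type*) [Field L] [Algebra O L] [Algebra (FractionRing O) L]
  [IsScalarTower O (FractionRing O) L] [FiniteDimensional (FractionRing O) L]

include O in
theorem isSeparable_fractionRing : Algebra.IsSeparable (FractionRing O) L := by
  have : CharZero (FractionRing O) := inferInstance
  infer_instance

theorem finite_integralClosure : Module.Finite O (integralClosure O L) := by
  have := isSeparable_fractionRing O L
  exact IsIntegralClosure.finite O (FractionRing O) L (integralClosure O L)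

theorem algebraMap_ext_injective : Function.Injective (algebraMap O L) := by
  rw [IsScalarTower.algebraMap_eq O (FractionRing O) L]
  exact (algebraMap (FractionRing O) L).injective.comp (IsFractionRing.injective O (FractionRing O))

theorem isTorsionFree_ext : Module.IsTorsionFree O L := by
  have : FaithfulSMul O L := (faithfulSMul_iff_algebraMap_injective O L).mpr
    (algebraMap_ext_injective O L)
  infer_instance

theorem free_integralClosure : Module.Free O (integralClosure O L) := by
  have := isSeparable_fractionRing O L
  have := isTorsionFree_ext O L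
  exact IsIntegralClosure.module_free O (FractionRing O) L (integralClosure O L)

theorem isDedekindDomain_integralClosure : IsDedekindDomain (integralClosure O L) := by
  have := isSeparable_fractionRing O L
  exact integralClosure.isDedekindDomain O (FractionRing O) (L := L)

theorem algebraMap_integralClosure_injective :
    Function.Injective (algebraMap O (integralClosure O L)) := by
  intro a b hab
  apply algebraMap_ext_injective O L
  have := congrArg (algebraMap (integralClosure O L) L) hab
  rwa [← IsScalarTower.algebraMap_apply, ← IsScalarTower.algebraMap_apply] at this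

/-- the extended maximal ideal -/
noncomputable abbrev extIdeal : Ideal (integralClosure O L) :=
  (maximalIdeal O).map (algebraMap O (integralClosure O L))

theorem extIdeal_ne_bot : extIdeal O L ≠ ⊥ := by
  rw [Ne, Ideal.map_eq_bot_iff_of_injective (algebraMap_integralClosure_injective O L)]
  exact IsDiscreteValuationRing.not_a_field O

theorem isAdicComplete_extIdeal : IsAdicComplete (extIdeal O L) (integralClosure O L) := by
  have := finite_integralClosure O L
  have := free_integralClosure O L
  have h1 : IsPrecomplete (maximalIdeal O) (integralClosure O L) := isPrecomplete_of_free _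
  have h2 : IsHausdorff (maximalIdeal O) (integralClosure O L) := inferInstance
  have h3 : IsAdicComplete (maximalIdeal O) (integralClosure O L) := { h1, h2 with }
  exact (IsAdicComplete.map_algebraMap_iff _ _).mpr h3

theorem isLocalRing_integralClosure : IsLocalRing (integralClosure O L) := by
  have := isDedekindDomain_integralClosure O L
  have := isAdicComplete_extIdeal O L
  exact isLocalRing_of_isAdicComplete_of_isDedekindDomain (extIdeal O L) (extIdeal_ne_bot O L)

theorem extIdeal_ne_top : extIdeal O L ≠ ⊤ := by
  have := isAdicComplete_extIdeal O L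
  have := isLocalRing_integralClosure O L
  intro h
  have h1 := IsAdicComplete.le_jacobson_bot (extIdeal O L)
  rw [h, top_le_iff, Ideal.jacobson_eq_top_iff] at h1
  exact bot_ne_top h1

theorem isDVR_integralClosure : IsDiscreteValuationRing (integralClosure O L) := by
  have := isDedekindDomain_integralClosure O L
  have := isLocalRing_integralClosure O L
  have hnf : ¬ IsField (integralClosure O L) := by
    rw [Ring.not_isField_iff_exists_ideal_bot_lt_and_lt_top]
    exact ⟨extIdeal O L, bot_lt_iff_ne_bot.mpr (extIdeal_ne_bot O L),
      lt_top_iff_ne_top.mpr (extIdeal_ne_top O L)⟩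
  exact ((IsDiscreteValuationRing.TFAE (integralClosure O L) hnf).out 0 2).mpr
    (isDedekindDomain_integralClosure O L)

theorem isAdicComplete_integralClosure [IsLocalRing (integralClosure O L)] :
    IsAdicComplete (maximalIdeal (integralClosure O L)) (integralClosure O L) := by
  have hdvr := isDVR_integralClosure O L
  obtain ⟨ϖ, hϖ⟩ := IsDiscreteValuationRing.exists_irreducible (integralClosure O L)
  obtain ⟨e, he⟩ := IsDiscreteValuationRing.ideal_eq_span_pow_irreducible (extIdeal_ne_bot O L) hϖ
  have hm : maximalIdeal (integralClosure O L) = Ideal.span {ϖ} := hϖ.maximalIdeal_eq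
  have he' : extIdeal O L = maximalIdeal (integralClosure O L) ^ e := by
    rw [he, hm, Ideal.span_singleton_pow]
  have he0 : e ≠ 0 := by
    rintro rfl
    rw [pow_zero, Ideal.one_eq_top] at he'
    exact extIdeal_ne_top O L he'
  have h1 := isAdicComplete_extIdeal O L
  rw [he'] at h1
  have h2 : IsPrecomplete (maximalIdeal (integralClosure O L) ^ e) (integralClosure O L) :=
    h1.toIsPrecomplete
  have h3 : IsPrecomplete (maximalIdeal (integralClosure O L)) (integralClosure O L) :=
    isPrecomplete_of_pow _ he0
  have : IsNoetherianRing (integralClosure O L) := inferInstance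
  have h4 : IsHausdorff (maximalIdeal (integralClosure O L)) (integralClosure O L) := inferInstance
  exact { h3, h4 with }

theorem isLocalHom_integralClosure : IsLocalHom (algebraMap O (integralClosure O L)) := by
  have : FaithfulSMul O (integralClosure O L) := (faithfulSMul_iff_algebraMap_injective _ _).mpr
    (algebraMap_integralClosure_injective O L)
  infer_instance

theorem finite_residueField_integralClosure [Finite (ResidueField O)]
    [IsLocalRing (integralClosure O L)] : Finite (ResidueField (integralClosure O L)) := by
  have := finite_integralClosure O L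
  have := isLocalHom_integralClosure O L
  exact IsLocalRing.ResidueField.finite_of_finite (R := O) inferInstance

theorem charZero_integralClosure : CharZero (integralClosure O L) := by
  have : CharZero L := charZero_of_injective_algebraMap (algebraMap_ext_injective O L)
  infer_instance

end Main
end Fermat.Agent.ESlib.PartD
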