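import Mathlib
import Fermat.Prelude.Def_CuspForm_HeckeAlgebra
import Fermat.Prelude.Def_FLTPrelim_Modularity
import Fermat.Agent.S49H.Forms
import Fermat.Agent.S22b.Main

/-!
# T-ES, Part D5a: the eigen-character of a normalised eigenform
-/

set_option autoImplicit false

namespace Fermat.Agent.ESlib.PartD

open CuspForm CongruenceSubgroup ModularFormClass Fermat.Agent.S49

variable {N : ℕ}

section formal

variable {a : ℕ → ℂ}

/-- the Hecke recursion at a prime, from multiplicativity and the prime power recursion -/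
lemma hecke_rec_of_mul {e : ℂ} {ℓ : ℕ} (hℓ : ℓ.Prime) (h0 : a 0 = 0)
    (hmul : ∀ m n : ℕ, m.Coprime n → a (m * n) = a m * a n)
    (hpow : ∀ r : ℕ, a (ℓ ^ (r + 2)) = a ℓ * a (ℓ ^ (r + 1)) - e * a (ℓ ^ r)) (n : ℕ) :
    a (ℓ * n) + e * (if ℓ ∣ n then a (n / ℓ) else 0) = a ℓ * a n := by
  rcases Nat.eq_zero_or_pos n with rfl | hn
  · simp [h0]
  obtain ⟨r, m, hm, rfl⟩ := Nat.exists_eq_pow_mul_and_not_dvd hn.ne' ℓ hℓ.ne_one
  have hcop : ∀ s : ℕ, (ℓ ^ s).Coprime m := fun s =>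
    Nat.Coprime.pow_left s ((Nat.Prime.coprime_iff_not_dvd hℓ).mpr hm)
  rcases r with _ | s
  · have h1 : ¬ ℓ ∣ ℓ ^ 0 * m := by simpa using hm
    rw [if_neg h1, mul_zero, add_zero, pow_zero, one_mul]
    have := hmul ℓ m (by simpa using hcop 1)
    exact this
  · have h1 : ℓ ∣ ℓ ^ (s + 1) * m := Dvd.dvd.mul_right (dvd_pow_self ℓ (Nat.succ_ne_zero s)) m
    have h2 : ℓ ^ (s + 1) * m / ℓ = ℓ ^ s * m := by
      rw [pow_succ, mul_assoc, mul_comm ℓ m, ← mul_assoc]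
      exact Nat.mul_div_cancel _ hℓ.pos
    have h3 : ℓ * (ℓ ^ (s + 1) * m) = ℓ ^ (s + 2) * m := by ring
    rw [if_pos h1, h2, h3, hmul _ _ (hcop _), hmul _ _ (hcop _), hmul _ _ (hcop _), hpow s]
    ring

end formal

variable [NeZero N] {g : CuspForm (Gamma0 N) 2}

lemma eq_of_qCoeff_eq {f h : CuspForm (Gamma0 N) 2} (H : ∀ n, qCoeff ⇑f n = qCoeff ⇑h n) :
    f = h := by
  rw [← sub_eq_zero]
  apply eq_zero_of_qCoeff
  intro n
  have : f - h = f + (-1 : ℂ) • h := by rw [neg_one_smul, sub_eq_add_neg]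
  rw [this, P2MW.S_CuspForm_intLattice_fg.W3WsD.qCoeff_add, qCoeff_csmul, H n]
  ring

lemma heckeTLin_eigen (hg : g.IsNormalizedEigenform) {ℓ : ℕ} (hℓ : ℓ.Prime) (hℓN : ¬ ℓ ∣ N) :
    CuspForm.heckeTLin 2 hℓ hℓN g = qCoeff ⇑g ℓ • g := by
  apply eq_of_qCoeff_eq
  intro n
  rw [qCoeff_heckeTLin, qCoeff_csmul]
  exact hecke_rec_of_mul hℓ (qCoeff_cusp_zero g) hg.qCoeff_mul_of_coprime
    (fun r => hg.qCoeff_prime_pow_of_not_dvd ℓ r hℓ hℓN) n

lemma heckeULin_eigen (hg : g.IsNormalizedEigenform) {q : ℕ} (hq : q.Prime) (hqN : q ∣ N) :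
    CuspForm.heckeULin 2 hqN g = qCoeff ⇑g q • g := by
  apply eq_of_qCoeff_eq
  intro n
  rw [qCoeff_heckeULin hq, qCoeff_csmul]
  have := hecke_rec_of_mul (e := 0) hq (qCoeff_cusp_zero g) hg.qCoeff_mul_of_coprime
    (fun r => by rw [hg.qCoeff_prime_pow_of_dvd q r hq hqN]; ring) n
  simpa using this

/-- every Hecke operator acts on a normalised eigenform by a scalar -/
lemma exists_eigenvalue (hg : g.IsNormalizedEigenform) (S : Set ℕ)
    (t : Module.End ℂ (CuspForm (Gamma0 N) 2)) (ht : t ∈ CuspForm.heckeAlgebra N 2 S) :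
    ∃ c : ℂ, t g = c • g := by
  induction ht using Algebra.adjoin_induction with
  | mem x hx =>
    rcases hx with ⟨ℓ, hℓ, hℓN, -, rfl⟩ | ⟨q, hqN, hq, -, rfl⟩
    · exact ⟨_, heckeTLin_eigen hg hℓ hℓN⟩
    · exact ⟨_, heckeULin_eigen hg hq hqN⟩
  | algebraMap r =>
    refine ⟨(r : ℂ), ?_⟩
    rw [Algebra.algebraMap_eq_smul_one, LinearMap.smul_apply, Module.End.one_apply]
    exact (Int.cast_smul_eq_zsmul ℂ r g).symm
  | add x y _ _ hx hy =>
    obtain ⟨c, hc⟩ := hx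
    obtain ⟨d, hd⟩ := hy
    exact ⟨c + d, by rw [LinearMap.add_apply, hc, hd, add_smul]⟩
  | mul x y _ _ hx hy =>
    obtain ⟨c, hc⟩ := hx
    obtain ⟨d, hd⟩ := hy
    exact ⟨c * d, by rw [Module.End.mul_apply, hd, map_smul, hc, smul_smul, mul_comm]⟩

lemma eigen_apply (hg : g.IsNormalizedEigenform) (S : Set ℕ) (t : CuspForm.heckeAlgebra N 2 S) :
    (t : Module.End ℂ (CuspForm (Gamma0 N) 2)) g =
      qCoeff ⇑((t : Module.End ℂ (CuspForm (Gamma0 N) 2)) g) 1 • g := by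
  obtain ⟨c, hc⟩ := exists_eigenvalue hg S t t.2
  rw [hc, qCoeff_csmul, hg.qCoeff_one, mul_one]

lemma smul_g_injective (hg : g.IsNormalizedEigenform) {c d : ℂ} (h : c • g = d • g) : c = d := by
  have h1 : qCoeff ⇑(c • g) 1 = qCoeff ⇑(d • g) 1 := by rw [h]
  rwa [qCoeff_csmul, qCoeff_csmul, hg.qCoeff_one, mul_one, mul_one] at h1

/-- the eigen-character of a normalised eigenform, with complex values -/
noncomputable def eigenCharC (hg : g.IsNormalizedEigenform) (S : Set ℕ) :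
    CuspForm.heckeAlgebra N 2 S →+* ℂ where
  toFun t := qCoeff ⇑((t : Module.End ℂ (CuspForm (Gamma0 N) 2)) g) 1
  map_one' := by
    show qCoeff ⇑((1 : Module.End ℂ (CuspForm (Gamma0 N) 2)) g) 1 = 1
    rw [Module.End.one_apply, hg.qCoeff_one]
  map_zero' := by
    show qCoeff ⇑((0 : Module.End ℂ (CuspForm (Gamma0 N) 2)) g) 1 = 0
    rw [LinearMap.zero_apply]
    exact P2MW.S_CuspForm_intLattice_fg.W3WsD.qCoeff_zero' 1
  map_add' s t := by
    show qCoeff ⇑(((s : Module.End ℂ (CuspForm (Gamma0 N) 2)) +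
      (t : Module.End ℂ (CuspForm (Gamma0 N) 2))) g) 1 = _
    rw [LinearMap.add_apply, P2MW.S_CuspForm_intLattice_fg.W3WsD.qCoeff_add]
  map_mul' s t := by
    show qCoeff ⇑(((s : Module.End ℂ (CuspForm (Gamma0 N) 2)) *
      (t : Module.End ℂ (CuspForm (Gamma0 N) 2))) g) 1 = _
    rw [Module.End.mul_apply, eigen_apply hg S t, map_smul, qCoeff_csmul, mul_comm]
    congr 1
    rw [qCoeff_csmul, hg.qCoeff_one, mul_one]

lemma eigenCharC_spec (hg : g.IsNormalizedEigenform) (S : Set ℕ)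
    (t : CuspForm.heckeAlgebra N 2 S) :
    (t : Module.End ℂ (CuspForm (Gamma0 N) 2)) g = eigenCharC hg S t • g :=
  eigen_apply hg S t

lemma eigenCharC_T (hg : g.IsNormalizedEigenform) (S : Set ℕ) {ℓ : ℕ} (hℓ : ℓ.Prime)
    (hℓN : ¬ ℓ ∣ N) (hℓS : ℓ ∉ S) :
    eigenCharC hg S (CuspForm.heckeAlgebra.T hℓ hℓN hℓS) = qCoeff ⇑g ℓ := by
  apply smul_g_injective hg
  rw [← eigenCharC_spec, CuspForm.heckeAlgebra.coe_T, heckeTLin_eigen hg]

lemma isIntegral_eigenCharC (hg : g.IsNormalizedEigenform) (S : Set ℕ)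
    (t : CuspForm.heckeAlgebra N 2 S) : IsIntegral ℤ (eigenCharC hg S t) := by
  have : Module.Finite ℤ (CuspForm.heckeAlgebra N 2 S) :=
    Fermat.Agent.S22b.finite_heckeAlgebra N 2 S
  have h1 : IsIntegral ℤ t := Algebra.IsIntegral.isIntegral t
  exact h1.map (eigenCharC hg S).toIntAlgHom

/-- the eigen-character of a normalised eigenform, with values in the algebraic integers -/
noncomputable def eigenChar (hg : g.IsNormalizedEigenform) (S : Set ℕ) :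
    CuspForm.heckeAlgebra N 2 S →+* integralClosure ℤ ℂ :=
  (eigenCharC hg S).codRestrict (integralClosure ℤ ℂ).toSubring (isIntegral_eigenCharC hg S)

lemma coe_eigenChar_T (hg : g.IsNormalizedEigenform) (S : Set ℕ) {ℓ : ℕ} (hℓ : ℓ.Prime)
    (hℓN : ¬ ℓ ∣ N) (hℓS : ℓ ∉ S) :
    ((eigenChar hg S (CuspForm.heckeAlgebra.T hℓ hℓN hℓS) : integralClosure ℤ ℂ) : ℂ) =
      qCoeff ⇑g ℓ :=
  eigenCharC_T hg S hℓ hℓN hℓS

end Fermat.Agent.ESlib.PartD
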