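import Mathlib
import Fermat.Agent.ES.D.Iface
import Fermat.Agent.ES.D.DVRExt

/-!
# T-ES, Part D3a: the limit action on `O ⊗ Λ`
-/

set_option autoImplicit false

namespace Fermat.Agent.ESlib.PartD

open TensorProduct IsLocalRing

section Lim

variable {Λ : Type} [AddCommGroup Λ] (p : ℕ)
variable {O : Type} [CommRing O] (I : Ideal O)

/-- `I ^ n (O ⊗ Λ)`. -/
abbrev powTop (Λ : Type) [AddCommGroup Λ] {O : Type} [CommRing O] (I : Ideal O) (n : ℕ) :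
    Submodule O (O ⊗[ℤ] Λ) := I ^ n • ⊤

variable {I}

lemma map_mem_powTop (F : O ⊗[ℤ] Λ →ₗ[O] O ⊗[ℤ] Λ) {n : ℕ} {v : O ⊗[ℤ] Λ}
    (hv : v ∈ powTop Λ I n) : F v ∈ powTop Λ I n := by
  refine Submodule.smul_induction_on hv ?_ ?_
  · intro r hr w _
    rw [map_smul]
    exact Submodule.smul_mem_smul hr Submodule.mem_top
  · intro x y hx hy
    rw [map_add]
    exact Submodule.add_mem _ hx hy

variable {p}

lemma one_tmul_mem_powTop (hp : (p : O) ∈ I) {n : ℕ} {x : Λ} (hx : x ∈ powSub Λ p n) :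
    (1 : O) ⊗ₜ[ℤ] x ∈ powTop Λ I n := by
  obtain ⟨y, rfl⟩ := hx
  have : (1 : O) ⊗ₜ[ℤ] (LinearMap.lsmul ℤ Λ ((p : ℤ) ^ n) y) = ((p : O) ^ n) • ((1 : O) ⊗ₜ[ℤ] y) := by
    rw [LinearMap.lsmul_apply, TensorProduct.tmul_smul, TensorProduct.smul_tmul']
    rw [TensorProduct.smul_tmul']
    congr 1
    simp
  rw [this]
  exact Submodule.smul_mem_smul (Ideal.pow_mem_pow hp n) Submodule.mem_top

/-- two `O`-linear maps which agree on `1 ⊗ x` modulo `I ^ n` agree modulo `I ^ n`. -/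
lemma sub_mem_powTop_of_forall (F G : O ⊗[ℤ] Λ →ₗ[O] O ⊗[ℤ] Λ) (n : ℕ)
    (h : ∀ x : Λ, F (1 ⊗ₜ x) - G (1 ⊗ₜ x) ∈ powTop Λ I n) (v : O ⊗[ℤ] Λ) :
    F v - G v ∈ powTop Λ I n := by
  induction v using TensorProduct.induction_on with
  | zero => simp
  | tmul a x =>
    have : a ⊗ₜ[ℤ] x = a • ((1 : O) ⊗ₜ[ℤ] x) := by rw [TensorProduct.smul_tmul', smul_eq_mul, mul_one]
    rw [this, map_smul, map_smul, ← smul_sub]
    exact Submodule.smul_mem _ _ (h x)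
  | add x y hx hy =>
    rw [map_add, map_add, add_sub_add_comm]
    exact Submodule.add_mem _ hx hy

/-- `F` is the limit of the sequence `φ n ∈ End (Λ / p ^ n)`. -/
def IsLim (p : ℕ) (I : Ideal O) (F : O ⊗[ℤ] Λ →ₗ[O] O ⊗[ℤ] Λ)
    (φ : ∀ n : ℕ, Module.End ℤ (Λ ⧸ powSub Λ p n)) : Prop :=
  ∀ (n : ℕ) (x y : Λ), φ n (Submodule.Quotient.mk x) = Submodule.Quotient.mk y →
    F (1 ⊗ₜ x) - 1 ⊗ₜ y ∈ powTop Λ I n

/-- The natural map `Λ / p ^ n → (O ⊗ Λ) / I ^ n`. -/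
noncomputable def qmap (Λ : Type) [AddCommGroup Λ] (hp : (p : O) ∈ I) (n : ℕ) :
    (Λ ⧸ powSub Λ p n) →ₗ[ℤ] ((O ⊗[ℤ] Λ) ⧸ powTop Λ I n) :=
  Submodule.liftQ (powSub Λ p n)
    (((powTop Λ I n).mkQ.restrictScalars ℤ) ∘ₗ (TensorProduct.mk ℤ O Λ 1)) (by
      intro x hx
      rw [LinearMap.mem_ker]
      show (powTop Λ I n).mkQ ((1 : O) ⊗ₜ[ℤ] x) = 0
      rw [Submodule.mkQ_apply, Submodule.Quotient.mk_eq_zero]
      exact one_tmul_mem_powTop hp hx)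

lemma qmap_mk (hp : (p : O) ∈ I) (n : ℕ) (x : Λ) :
    qmap Λ hp n (Submodule.Quotient.mk x) = Submodule.Quotient.mk ((1 : O) ⊗ₜ[ℤ] x) := rfl

theorem exists_isLim [IsAdicComplete I (O ⊗[ℤ] Λ)] (hp : (p : O) ∈ I)
    (φ : ∀ n : ℕ, Module.End ℤ (Λ ⧸ powSub Λ p n))
    (hφ : ∀ (n : ℕ) (x y : Λ), φ (n + 1) (Submodule.Quotient.mk x) = Submodule.Quotient.mk y →
      φ n (Submodule.Quotient.mk x) = Submodule.Quotient.mk y) :
    ∃ F : O ⊗[ℤ] Λ →ₗ[O] O ⊗[ℤ] Λ, IsLim p I F φ := by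
  let f : ∀ n, O ⊗[ℤ] Λ →ₗ[O] (O ⊗[ℤ] Λ) ⧸ (I ^ n • ⊤ : Submodule O (O ⊗[ℤ] Λ)) := fun n =>
    LinearMap.liftBaseChange O (qmap Λ hp n ∘ₗ φ n ∘ₗ (powSub Λ p n).mkQ)
  have hf : ∀ n x y, φ n (Submodule.Quotient.mk x) = Submodule.Quotient.mk y →
      f n (1 ⊗ₜ x) = Submodule.Quotient.mk ((1 : O) ⊗ₜ[ℤ] y) := by
    intro n x y hxy
    show (1 : O) • (qmap Λ hp n (φ n (Submodule.Quotient.mk x))) = _
    rw [one_smul, hxy, qmap_mk]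
  have hle : ∀ {m n : ℕ} (_ : m ≤ n) (x y : Λ),
      φ n (Submodule.Quotient.mk x) = Submodule.Quotient.mk y →
      φ m (Submodule.Quotient.mk x) = Submodule.Quotient.mk y := by
    intro m n hmn
    induction hmn with
    | refl => exact fun x y h => h
    | step _ ih => exact fun x y h => ih x y (hφ _ x y h)
  refine ⟨IsAdicComplete.lift I f ?_, ?_⟩
  · intro m n hmn
    apply (LinearMap.liftBaseChangeEquiv O (R := ℤ)).symm.injective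
    ext x
    rw [LinearMap.liftBaseChangeEquiv_symm_apply, LinearMap.liftBaseChangeEquiv_symm_apply,
      LinearMap.comp_apply]
    obtain ⟨y, hy⟩ := Submodule.Quotient.mk_surjective _ (φ n (Submodule.Quotient.mk x))
    rw [hf n x y hy.symm, hf m x y (hle hmn x y hy.symm)]
    rfl
  · intro n x y hxy
    rw [← Submodule.Quotient.eq, IsAdicComplete.mk_lift, hf n x y hxy]

lemma IsLim.smodEq {F : O ⊗[ℤ] Λ →ₗ[O] O ⊗[ℤ] Λ}
    {φ : ∀ n : ℕ, Module.End ℤ (Λ ⧸ powSub Λ p n)} (hF : IsLim p I F φ) {n : ℕ} {x y : Λ}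
    (h : φ n (Submodule.Quotient.mk x) = Submodule.Quotient.mk y) :
    F (1 ⊗ₜ x) ≡ 1 ⊗ₜ y [SMOD powTop Λ I n] :=
  SModEq.sub_mem.mpr (hF n x y h)

lemma smodEq_map (F : O ⊗[ℤ] Λ →ₗ[O] O ⊗[ℤ] Λ) {n : ℕ} {a b : O ⊗[ℤ] Λ}
    (h : a ≡ b [SMOD powTop Λ I n]) : F a ≡ F b [SMOD powTop Λ I n] := by
  rw [SModEq.sub_mem] at h ⊢
  rw [← map_sub]
  exact map_mem_powTop F h

lemma eq_of_forall_smodEq [IsHausdorff I (O ⊗[ℤ] Λ)] {F G : O ⊗[ℤ] Λ →ₗ[O] O ⊗[ℤ] Λ}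
    (h : ∀ (n : ℕ) (x : Λ), F (1 ⊗ₜ x) ≡ G (1 ⊗ₜ x) [SMOD powTop Λ I n]) : F = G := by
  refine LinearMap.ext fun v => ?_
  rw [← sub_eq_zero]
  refine IsHausdorff.haus ‹_› _ fun n => ?_
  rw [SModEq.zero]
  exact sub_mem_powTop_of_forall F G n (fun x => SModEq.sub_mem.mp (h n x)) v

lemma one_tmul_smodEq (hp : (p : O) ∈ I) {n : ℕ} {x y : Λ} (h : x - y ∈ powSub Λ p n) :
    (1 : O) ⊗ₜ[ℤ] x ≡ 1 ⊗ₜ y [SMOD powTop Λ I n] := by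
  rw [SModEq.sub_mem, ← TensorProduct.tmul_sub]
  exact one_tmul_mem_powTop hp h

end Lim

end Fermat.Agent.ESlib.PartD
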