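import Mathlib
import Fermat.Agent.ES.D.LimitRep

/-!
# T-ES, Part D3a (continued): the Galois representation on `O ⊗ Λ` attached to a `TateDatum`
and its restriction to a Hecke eigenspace
-/

set_option autoImplicit false
set_option linter.unusedSectionVars false

namespace Fermat.Agent.ESlib.PartD

open TensorProduct IsLocalRing

section Tate

variable {N : ℕ} [NeZero N] {p : ℕ} (D : TateDatum N p)
variable {O : Type} [CommRing O] [IsLocalRing O] [IsNoetherianRing O]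
  [IsAdicComplete (maximalIdeal O) O]

instance instCompleteTensor : IsAdicComplete (maximalIdeal O) (O ⊗[ℤ] D.Λ) := by
  have h1 : IsPrecomplete (maximalIdeal O) (O ⊗[ℤ] D.Λ) := isPrecomplete_of_free _
  have h2 : IsHausdorff (maximalIdeal O) (O ⊗[ℤ] D.Λ) := inferInstance
  exact { h1, h2 with }

variable (hp : (p : O) ∈ maximalIdeal O)

/-- The limit action of `σ` on `O ⊗ Λ`. -/
noncomputable def limRho (σ : GQ) : O ⊗[ℤ] D.Λ →ₗ[O] O ⊗[ℤ] D.Λ :=
  (exists_isLim hp (fun n => D.gal n σ) (fun n => D.gal_compat n σ)).choose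

lemma limRho_isLim (σ : GQ) : IsLim p (maximalIdeal O) (limRho D hp σ) (fun n => D.gal n σ) :=
  (exists_isLim hp (fun n => D.gal n σ) (fun n => D.gal_compat n σ)).choose_spec

lemma limRho_smodEq (σ : GQ) {n : ℕ} {x y : D.Λ}
    (h : D.gal n σ (Submodule.Quotient.mk x) = Submodule.Quotient.mk y) :
    limRho D hp σ (1 ⊗ₜ x) ≡ 1 ⊗ₜ y [SMOD powTop D.Λ (maximalIdeal O) n] :=
  (limRho_isLim D hp σ).smodEq h

lemma limRho_one : limRho D hp 1 = LinearMap.id := by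
  refine eq_of_forall_smodEq (I := maximalIdeal O) fun n x => ?_
  exact limRho_smodEq D hp 1 (by rw [map_one]; rfl)

lemma limRho_mul (σ τ : GQ) : limRho D hp (σ * τ) = limRho D hp σ ∘ₗ limRho D hp τ := by
  refine eq_of_forall_smodEq (I := maximalIdeal O) fun n x => ?_
  obtain ⟨y, hy⟩ := Submodule.Quotient.mk_surjective _ (D.gal n τ (Submodule.Quotient.mk x))
  obtain ⟨z, hz⟩ := Submodule.Quotient.mk_surjective _ (D.gal n σ (Submodule.Quotient.mk y))
  have h1 : D.gal n (σ * τ) (Submodule.Quotient.mk x) = Submodule.Quotient.mk z := by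
    rw [map_mul, Module.End.mul_apply, ← hy, ← hz]
  refine (limRho_smodEq D hp (σ * τ) h1).trans ?_
  rw [LinearMap.comp_apply]
  exact ((smodEq_map _ (limRho_smodEq D hp τ hy.symm)).trans (limRho_smodEq D hp σ hz.symm)).symm

/-- The Galois action on `O ⊗ Λ`. -/
noncomputable def rhoM : GQ →* Module.End O (O ⊗[ℤ] D.Λ) where
  toFun := limRho D hp
  map_one' := limRho_one D hp
  map_mul' := limRho_mul D hp

lemma rhoM_apply (σ : GQ) : rhoM D hp σ = limRho D hp σ := rfl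

/-- The Hecke action on `O ⊗ Λ`. -/
noncomputable def heckeO (O : Type) [CommRing O] (t : FullHecke N) : Module.End O (O ⊗[ℤ] D.Λ) :=
  (D.hecke t).baseChange O

lemma heckeO_one_tmul (t : FullHecke N) (x : D.Λ) :
    heckeO D O t (1 ⊗ₜ x) = 1 ⊗ₜ (D.hecke t x) := rfl

lemma rhoM_heckeO_comm (σ : GQ) (t : FullHecke N) :
    rhoM D hp σ ∘ₗ heckeO D O t = heckeO D O t ∘ₗ rhoM D hp σ := by
  refine eq_of_forall_smodEq (I := maximalIdeal O) fun n x => ?_
  obtain ⟨y, hy⟩ := Submodule.Quotient.mk_surjective _ (D.gal n σ (Submodule.Quotient.mk x))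
  rw [LinearMap.comp_apply, LinearMap.comp_apply, heckeO_one_tmul]
  refine (limRho_smodEq D hp σ (D.gal_hecke n σ t x y hy.symm)).trans ?_
  rw [← heckeO_one_tmul]
  exact (smodEq_map _ (limRho_smodEq D hp σ hy.symm)).symm

lemma rhoM_sub_mem (σ : GQ) (n : ℕ) (h : D.gal n σ = 1) (v : O ⊗[ℤ] D.Λ) :
    rhoM D hp σ v - v ∈ powTop D.Λ (maximalIdeal O) n := by
  refine sub_mem_powTop_of_forall (rhoM D hp σ) LinearMap.id n (fun x => ?_) v
  exact SModEq.sub_mem.mp (limRho_smodEq D hp σ (by rw [h]; rfl))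

lemma rhoM_eq_one (σ : GQ) (h : ∀ n, D.gal n σ = 1) : rhoM D hp σ = 1 := by
  refine eq_of_forall_smodEq (I := maximalIdeal O) fun n x => ?_
  exact limRho_smodEq D hp σ (by rw [h n]; rfl)

lemma rhoM_frob {ℓ : ℕ} (hℓ : ℓ.Prime) (hℓN : ¬ ℓ ∣ N) (hℓp : ℓ ≠ p)
    (A : ValuationSubring (AlgebraicClosure ℚ)) (hA : A.LiesOverPrime ℓ) (σ : GQ)
    (hσ : A.IsFrobeniusAt σ ℓ) :
    rhoM D hp σ * rhoM D hp σ
      - heckeO D O (CuspForm.heckeAlgebra.T hℓ hℓN (Set.notMem_empty ℓ)) * rhoM D hp σ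
      + (ℓ : O) • 1 = 0 := by
  refine eq_of_forall_smodEq (I := maximalIdeal O) fun n x => ?_
  obtain ⟨y, hy⟩ := Submodule.Quotient.mk_surjective _ (D.gal n σ (Submodule.Quotient.mk x))
  obtain ⟨z, hz⟩ := Submodule.Quotient.mk_surjective _ (D.gal n σ (Submodule.Quotient.mk y))
  have h := D.gal_frob n ℓ hℓ hℓN hℓp A hA σ hσ x y z hy.symm hz.symm
  set T := CuspForm.heckeAlgebra.T (k := 2) hℓ hℓN (Set.notMem_empty ℓ) with hT
  have h1 : rhoM D hp σ (1 ⊗ₜ x) ≡ 1 ⊗ₜ y [SMOD powTop D.Λ (maximalIdeal O) n] :=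
    limRho_smodEq D hp σ hy.symm
  have h2 : rhoM D hp σ (rhoM D hp σ (1 ⊗ₜ x)) ≡ 1 ⊗ₜ z [SMOD powTop D.Λ (maximalIdeal O) n] :=
    (smodEq_map _ h1).trans (limRho_smodEq D hp σ hz.symm)
  have h3 : heckeO D O T (rhoM D hp σ (1 ⊗ₜ x)) ≡ 1 ⊗ₜ (D.hecke T y)
      [SMOD powTop D.Λ (maximalIdeal O) n] := by
    rw [← heckeO_one_tmul]
    exact smodEq_map _ h1
  have h4 : (ℓ : O) • ((1 : O) ⊗ₜ[ℤ] x) = 1 ⊗ₜ ((ℓ : ℤ) • x) := by
    rw [TensorProduct.tmul_smul, TensorProduct.smul_tmul', TensorProduct.smul_tmul']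
    congr 1
    simp
  have h5 : (rhoM D hp σ * rhoM D hp σ - heckeO D O T * rhoM D hp σ + (ℓ : O) • 1)
      ((1 : O) ⊗ₜ[ℤ] x) = rhoM D hp σ (rhoM D hp σ (1 ⊗ₜ x))
        - heckeO D O T (rhoM D hp σ (1 ⊗ₜ x)) + (ℓ : O) • ((1 : O) ⊗ₜ[ℤ] x) := rfl
  rw [h5, h4, LinearMap.zero_apply]
  refine ((h2.sub h3).add (SModEq.refl _)).trans ?_
  rw [← TensorProduct.tmul_sub, ← TensorProduct.tmul_add, SModEq.zero]
  exact one_tmul_mem_powTop hp h

end Tate

section Eigen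

variable {N : ℕ} [NeZero N] {p : ℕ} (D : TateDatum N p)
variable {O : Type} [CommRing O] [IsDomain O] [IsDiscreteValuationRing O]
  [IsAdicComplete (maximalIdeal O) O] (hp : (p : O) ∈ maximalIdeal O)
  (lam : FullHecke N →+* O)

/-- The `lam`-eigenspace in `O ⊗ Λ`. -/
noncomputable def eigenO : Submodule O (O ⊗[ℤ] D.Λ) :=
  ⨅ t : FullHecke N, LinearMap.ker (heckeO D O t - lam t • LinearMap.id)

lemma mem_eigenO {v : O ⊗[ℤ] D.Λ} : v ∈ eigenO D lam ↔ ∀ t, heckeO D O t v = lam t • v := by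
  simp only [eigenO, Submodule.mem_iInf, LinearMap.mem_ker, LinearMap.sub_apply,
    LinearMap.smul_apply, LinearMap.id_apply, sub_eq_zero]

lemma rhoM_mem_eigenO (σ : GQ) {v : O ⊗[ℤ] D.Λ} (hv : v ∈ eigenO D lam) :
    rhoM D hp σ v ∈ eigenO D lam := by
  rw [mem_eigenO] at hv ⊢
  intro t
  have := congrArg (fun f => f v) (rhoM_heckeO_comm D hp σ t)
  simp only [LinearMap.comp_apply] at this
  rw [← this, hv t, map_smul]

lemma mem_eigenO_of_smul {a : O} (ha : a ≠ 0) {w : O ⊗[ℤ] D.Λ} (h : a • w ∈ eigenO D lam) :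
    w ∈ eigenO D lam := by
  rw [mem_eigenO] at h ⊢
  intro t
  have h1 := h t
  rw [map_smul, smul_comm] at h1
  exact smul_right_injective _ ha h1

/-- The Galois action on the eigenspace. -/
noncomputable def rhoV : GQ →* Module.End O (eigenO D lam) where
  toFun σ := (rhoM D hp σ).restrict fun _ hv => rhoM_mem_eigenO D hp lam σ hv
  map_one' := by
    ext v
    simp
  map_mul' σ τ := by
    ext v
    simp

lemma rhoV_coe (σ : GQ) (v : eigenO D lam) :
    ((rhoV D hp lam σ v : eigenO D lam) : O ⊗[ℤ] D.Λ) = rhoM D hp σ v := rfl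

lemma rhoV_continuous : GaloisActionIsAdicContinuous O (rhoV D hp lam) := by
  intro n
  obtain ⟨L, hL, h⟩ := D.gal_finite n
  refine ⟨L, hL, fun σ hσ v => ?_⟩
  have h1 := rhoM_sub_mem D hp σ n (h σ hσ) v
  obtain ⟨ϖ, hϖ⟩ := IsDiscreteValuationRing.exists_irreducible O
  rw [powTop, hϖ.maximalIdeal_eq, Ideal.span_singleton_pow, Submodule.ideal_span_singleton_smul,
    Submodule.mem_smul_pointwise_iff_exists] at h1
  obtain ⟨w, -, hw⟩ := h1
  have hw' : w ∈ eigenO D lam := by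
    refine mem_eigenO_of_smul D lam (pow_ne_zero n hϖ.ne_zero) ?_
    rw [hw]
    exact Submodule.sub_mem _ (rhoM_mem_eigenO D hp lam σ v.2) v.2
  have h2 : rhoV D hp lam σ v - v = (ϖ ^ n) • (⟨w, hw'⟩ : eigenO D lam) := by
    apply Subtype.ext
    exact hw.symm
  rw [h2]
  refine Submodule.smul_mem_smul ?_ Submodule.mem_top
  rw [hϖ.maximalIdeal_eq, Ideal.span_singleton_pow]
  exact Ideal.mem_span_singleton_self _

/-- The representation on the eigenspace. -/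
noncomputable def repV (hrank : Module.finrank O (eigenO D lam) = 2) : GaloisRepAdic O where
  V := eigenO D lam
  finrank_eq := hrank
  ρ := rhoV D hp lam
  isAdicContinuous := rhoV_continuous D hp lam

lemma repV_unram (hrank : Module.finrank O (eigenO D lam) = 2) {ℓ : ℕ} (hℓ : ℓ.Prime)
    (hℓN : ¬ ℓ ∣ N) (hℓp : ℓ ≠ p) : (repV D hp lam hrank).IsUnramifiedAt ℓ := by
  intro A hA σ hσ
  have h1 : rhoM D hp σ = 1 := rhoM_eq_one D hp σ fun n => D.gal_unram n ℓ hℓ hℓN hℓp A hA σ hσ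
  refine LinearMap.ext fun (v : eigenO D lam) => Subtype.ext ?_
  show rhoM D hp σ (v : O ⊗[ℤ] D.Λ) = v
  rw [h1]; rfl

lemma repV_frob (hrank : Module.finrank O (eigenO D lam) = 2) {ℓ : ℕ} (hℓ : ℓ.Prime)
    (hℓN : ¬ ℓ ∣ N) (hℓp : ℓ ≠ p) (A : ValuationSubring (AlgebraicClosure ℚ))
    (hA : A.LiesOverPrime ℓ) (σ : GQ) (hσ : A.IsFrobeniusAt σ ℓ) :
    (repV D hp lam hrank).ρ σ * (repV D hp lam hrank).ρ σ
      - lam (CuspForm.heckeAlgebra.T hℓ hℓN (Set.notMem_empty ℓ)) • (repV D hp lam hrank).ρ σ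
      + (ℓ : O) • 1 = 0 := by
  refine LinearMap.ext fun (v : eigenO D lam) => Subtype.ext ?_
  have h1 := congrArg (fun f => f (v : O ⊗[ℤ] D.Λ)) (rhoM_frob D hp hℓ hℓN hℓp A hA σ hσ)
  have h2 := (mem_eigenO D lam).mp (rhoM_mem_eigenO D hp lam σ v.2)
    (CuspForm.heckeAlgebra.T hℓ hℓN (Set.notMem_empty ℓ))
  simp only [LinearMap.add_apply, LinearMap.sub_apply, Module.End.mul_apply, LinearMap.smul_apply,
    Module.End.one_apply, LinearMap.zero_apply] at h1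
  rw [h2] at h1
  exact h1

end Eigen
end Fermat.Agent.ESlib.PartD
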