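import Mathlib
import Fermat.Agent.ES.D.TateRep

/-!
# T-ES, Part D7: the Hecke eigenspace in `O ⊗ Λ` is free of rank two

Transfer of `TateDatum.eigen` (a statement over `ℂ`) to an arbitrary principal ideal domain of
characteristic zero, by flat base change `ℂ ← κ → Frac O ← O`, `κ` the number field generated by
the eigenvalues.
-/

set_option autoImplicit false
set_option linter.unusedSectionVars false

namespace Fermat.Agent.ESlib.PartD

open TensorProduct IsLocalRing

theorem finrank_ker_eq_of_flat {R R' : Type*} [CommRing R] [CommRing R'] [Nontrivial R]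
    [Nontrivial R'] [Algebra R R'] [Module.Flat R R']
    {V W : Type*} [AddCommGroup V] [Module R V] [AddCommGroup W] [Module R W]
    {V' W' : Type*} [AddCommGroup V'] [Module R' V'] [AddCommGroup W'] [Module R' W']
    (f : V →ₗ[R] W) (f' : V' →ₗ[R'] W')
    (e1 : R' ⊗[R] V ≃ₗ[R'] V') (e2 : R' ⊗[R] W →ₗ[R'] W') (he2 : Function.Injective e2)
    (hcomm : ∀ v, f' (e1 v) = e2 (f.baseChange R' v))
    [Module.Free R (LinearMap.ker f)] :
    Module.finrank R' (LinearMap.ker f') = Module.finrank R (LinearMap.ker f) := by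
  have hmap : (LinearMap.ker (f.baseChange R')).map (e1 : R' ⊗[R] V →ₗ[R'] V') =
      LinearMap.ker f' := by
    ext v'
    constructor
    · rintro ⟨v, hv, rfl⟩
      rw [LinearMap.mem_ker]
      show f' (e1 v) = 0
      rw [hcomm, LinearMap.mem_ker.mp hv, map_zero]
    · intro hv'
      refine ⟨e1.symm v', ?_, by simp⟩
      rw [SetLike.mem_coe, LinearMap.mem_ker]
      apply he2
      rw [← hcomm, LinearEquiv.apply_symm_apply, map_zero]
      exact hv'
  have e3 : LinearMap.ker (f.baseChange R') ≃ₗ[R'] LinearMap.ker f' :=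
    LinearEquiv.ofSubmodules e1 _ _ hmap
  have e4 : R' ⊗[R] LinearMap.ker f ≃ₗ[R'] LinearMap.ker (f.baseChange R') :=
    LinearMap.tensorKerEquiv R' R' f
  rw [← e3.finrank_eq, ← e4.finrank_eq, Module.finrank_baseChange]

section

variable {N : ℕ} [NeZero N] {p : ℕ} (D : TateDatum N p)

lemma heckeO_tmul {R : Type} [CommRing R] (t : FullHecke N) (a : R) (x : D.Λ) :
    heckeO D R t (a ⊗ₜ x) = a ⊗ₜ (D.hecke t x) := rfl

lemma mem_eigenR {R : Type} [CommRing R] (lam : FullHecke N →+* R) {v : R ⊗[ℤ] D.Λ} :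
    v ∈ eigenO D lam ↔ ∀ t, heckeO D R t v = lam t • v := by
  simp only [eigenO, Submodule.mem_iInf, LinearMap.mem_ker, LinearMap.sub_apply,
    LinearMap.smul_apply, LinearMap.id_apply, sub_eq_zero]

lemma eigenO_eq_iInf_of_span {R : Type} [CommRing R] (lam : FullHecke N →+* R) {ι : Type*}
    (t : ι → FullHecke N) (ht : Submodule.span ℤ (Set.range t) = ⊤) :
    eigenO D lam = ⨅ j, LinearMap.ker (heckeO D R (t j) - lam (t j) • LinearMap.id) := by
  apply le_antisymm
  · exact le_iInf fun j => iInf_le _ (t j)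
  · intro v hv
    rw [mem_eigenR]
    simp only [Submodule.mem_iInf, LinearMap.mem_ker, LinearMap.sub_apply,
      LinearMap.smul_apply, LinearMap.id_apply, sub_eq_zero] at hv
    intro s
    have hs : s ∈ Submodule.span ℤ (Set.range t) := ht ▸ Submodule.mem_top
    induction hs using Submodule.span_induction with
    | mem x hx =>
      obtain ⟨j, rfl⟩ := hx
      exact hv j
    | zero => simp [heckeO]
    | add x y _ _ hx hy =>
      simp only [heckeO, map_add, LinearMap.baseChange_add, LinearMap.add_apply, add_smul] at hx hy ⊢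
      rw [hx, hy]
    | smul n x _ hx =>
      simp only [heckeO, map_zsmul, LinearMap.baseChange_smul, LinearMap.smul_apply] at hx ⊢
      rw [hx, smul_assoc]

theorem finrank_eigenO_baseChange {R R' : Type} [CommRing R] [CommRing R'] [Nontrivial R]
    [Nontrivial R'] [Algebra R R'] [Module.Flat R R'] [Module.Finite ℤ (FullHecke N)]
    (lam : FullHecke N →+* R) [Module.Free R (eigenO D lam)] :
    Module.finrank R' (eigenO D ((algebraMap R R').comp lam)) =
      Module.finrank R (eigenO D lam) := by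
  classical
  obtain ⟨s, hs⟩ := (Module.Finite.fg_top : (⊤ : Submodule ℤ (FullHecke N)).FG)
  have hs' : Submodule.span ℤ (Set.range (Subtype.val : s → FullHecke N)) = ⊤ := by
    rw [Subtype.range_coe_subtype]
    exact hs
  let f : R ⊗[ℤ] D.Λ →ₗ[R] (s → R ⊗[ℤ] D.Λ) :=
    LinearMap.pi fun j => heckeO D R (j : FullHecke N) - lam j • LinearMap.id
  let f' : R' ⊗[ℤ] D.Λ →ₗ[R'] (s → R' ⊗[ℤ] D.Λ) :=
    LinearMap.pi fun j => heckeO D R' (j : FullHecke N)
      - ((algebraMap R R').comp lam) j • LinearMap.id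
  have hker : eigenO D lam = LinearMap.ker f := by
    rw [eigenO_eq_iInf_of_span D lam _ hs', LinearMap.ker_pi]
  have hker' : eigenO D ((algebraMap R R').comp lam) = LinearMap.ker f' := by
    rw [eigenO_eq_iInf_of_span D _ _ hs', LinearMap.ker_pi]
  have hfree : Module.Free R (LinearMap.ker f) := hker ▸ inferInstance
  rw [hker, hker']
  let e1 : R' ⊗[R] (R ⊗[ℤ] D.Λ) ≃ₗ[R'] R' ⊗[ℤ] D.Λ :=
    TensorProduct.AlgebraTensorModule.cancelBaseChange ℤ R R' R' D.Λ
  let e2 : R' ⊗[R] (s → R ⊗[ℤ] D.Λ) ≃ₗ[R'] (s → R' ⊗[ℤ] D.Λ) :=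
    (TensorProduct.piRight R R' R' (fun _ : s => R ⊗[ℤ] D.Λ)).trans
      (LinearEquiv.piCongrRight fun _ => e1)
  refine finrank_ker_eq_of_flat f f' e1 e2.toLinearMap e2.injective ?_
  intro v
  funext j
  induction v using TensorProduct.induction_on with
  | zero => simp
  | add x y hx hy => simp only [map_add, Pi.add_apply, hx, hy]
  | tmul a w =>
    induction w using TensorProduct.induction_on with
    | zero => simp
    | add x y hx hy => simp only [TensorProduct.tmul_add, map_add, Pi.add_apply, hx, hy]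
    | tmul b x =>
      show heckeO D R' (j : FullHecke N) (e1 (a ⊗ₜ[R] (b ⊗ₜ[ℤ] x)))
          - ((algebraMap R R').comp lam) j • (e1 (a ⊗ₜ[R] (b ⊗ₜ[ℤ] x))) =
        e1 (a ⊗ₜ[R] (heckeO D R (j : FullHecke N) (b ⊗ₜ[ℤ] x) - lam j • (b ⊗ₜ[ℤ] x)))
      simp only [e1, TensorProduct.tmul_sub, map_sub, heckeO_tmul,
        TensorProduct.AlgebraTensorModule.cancelBaseChange_tmul, RingHom.comp_apply]
      congr 1
      rw [TensorProduct.smul_tmul', TensorProduct.smul_tmul',
        TensorProduct.AlgebraTensorModule.cancelBaseChange_tmul]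
      congr 1
      rw [Algebra.smul_def, Algebra.smul_def, Algebra.smul_def, smul_eq_mul, map_mul]
      simp only [Algebra.algebraMap_self, RingHom.id_apply]
      ring


theorem finrank_eigenO_eq_two_aux [Module.Finite ℤ (FullHecke N)] {O : Type} [CommRing O]
    [IsDomain O] [IsPrincipalIdealRing O] [CharZero O] (L : Type) [Field L] [Algebra O L]
    [IsFractionRing O L] (lam : FullHecke N →+* O) :
    Module.finrank O (eigenO D lam) = 2 := by
  have : CharZero L := charZero_of_injective_algebraMap (IsFractionRing.injective O L)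
  have : Module.Flat O L := IsLocalization.flat L (nonZeroDivisors O)
  let lamL : FullHecke N →+* L := (algebraMap O L).comp lam
  have h1 : Module.finrank L (eigenO D lamL) = Module.finrank O (eigenO D lam) :=
    finrank_eigenO_baseChange D lam
  let κ : IntermediateField ℚ L := IntermediateField.adjoin ℚ (Set.range lamL)
  have hint : ∀ x ∈ Set.range lamL, IsIntegral ℚ x := by
    rintro _ ⟨t, rfl⟩
    have ht : IsIntegral ℤ t := Algebra.IsIntegral.isIntegral t
    exact (ht.map lamL.toIntAlgHom).tower_top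
  have halg : Algebra.IsAlgebraic ℚ κ := IntermediateField.isAlgebraic_adjoin hint
  let lamκ : FullHecke N →+* κ := lamL.codRestrict κ fun t =>
    IntermediateField.subset_adjoin ℚ _ ⟨t, rfl⟩
  have h2 : Module.finrank L (eigenO D ((algebraMap κ L).comp lamκ)) =
      Module.finrank κ (eigenO D lamκ) := finrank_eigenO_baseChange D lamκ
  have h2' : (algebraMap κ L).comp lamκ = lamL := rfl
  rw [h2'] at h2
  let ι : κ →ₐ[ℚ] ℂ := IsAlgClosed.lift
  let _ : Algebra κ ℂ := ι.toRingHom.toAlgebra
  have h3 : Module.finrank ℂ (eigenO D ((algebraMap κ ℂ).comp lamκ)) =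
      Module.finrank κ (eigenO D lamκ) := finrank_eigenO_baseChange D lamκ
  have h4 : Module.finrank ℂ (eigenO D ((algebraMap κ ℂ).comp lamκ)) = 2 :=
    D.eigen ((algebraMap κ ℂ).comp lamκ)
  rw [← h1, h2, ← h3, h4]

theorem finrank_eigenO_eq_two [Module.Finite ℤ (FullHecke N)] {O : Type} [CommRing O] [IsDomain O]
    [IsPrincipalIdealRing O] [CharZero O] (lam : FullHecke N →+* O) :
    Module.finrank O (eigenO D lam) = 2 :=
  finrank_eigenO_eq_two_aux D (FractionRing O) lam

end

end Fermat.Agent.ESlib.PartD
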