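import Mathlib
import Fermat.Prelude.Def_CuspForm_HeckeAlgebra
import Fermat.Agent.ES.D.DVRExt
import Fermat.Agent.S22b.Main

/-!
# T-ES, Part D2: extension of a point of the Hecke algebra away from `S` to the full Hecke algebra
-/

set_option autoImplicit false

namespace Fermat.Agent.ESlib.PartD

open IsLocalRing

/-- Ring homomorphisms to an algebraically closed field extend along injective integral
extensions. -/
theorem exists_ringHom_extend {A B Ω : Type*} [CommRing A] [CommRing B] [Algebra A B]
    [Algebra.IsIntegral A B] (hinj : Function.Injective (algebraMap A B)) [Field Ω]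
    [IsAlgClosed Ω] (χ : A →+* Ω) : ∃ μ : B →+* Ω, ∀ a, μ (algebraMap A B a) = χ a := by
  have hprime : (RingHom.ker χ).IsPrime := RingHom.ker_isPrime χ
  obtain ⟨P, -, hP, hPc⟩ := Ideal.exists_ideal_over_prime_of_isIntegral (S := B) (RingHom.ker χ) ⊥
    (by
      have : (⊥ : Ideal B).comap (algebraMap A B) = ⊥ := by
        rw [← RingHom.ker_eq_comap_bot]
        exact (RingHom.injective_iff_ker_eq_bot _).mp hinj
      rw [this]; exact bot_le)
  have hcp : (P.comap (algebraMap A B)).IsPrime := hPc ▸ hprime
  let χb : (A ⧸ P.comap (algebraMap A B)) →+* Ω :=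
    Ideal.Quotient.lift _ χ (fun a ha => by rw [hPc] at ha; exact ha)
  have hχb : Function.Injective χb := by
    rw [injective_iff_map_eq_zero]
    intro x hx
    obtain ⟨a, rfl⟩ := Ideal.Quotient.mk_surjective x
    rw [Ideal.Quotient.eq_zero_iff_mem, hPc]
    exact hx
  let _ : Algebra (A ⧸ P.comap (algebraMap A B)) Ω := χb.toAlgebra
  have hd1 : IsDomain (A ⧸ P.comap (algebraMap A B)) := Ideal.Quotient.isDomain _
  have hd2 : IsDomain (B ⧸ P) := Ideal.Quotient.isDomain _
  have : Module.IsTorsionFree (A ⧸ P.comap (algebraMap A B)) Ω :=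
    Module.isTorsionFree_iff_algebraMap_injective.mpr hχb
  have : Module.IsTorsionFree (A ⧸ P.comap (algebraMap A B)) (B ⧸ P) :=
    Module.isTorsionFree_iff_algebraMap_injective.mpr Ideal.algebraMap_quotient_injective
  have : Algebra.IsIntegral (A ⧸ P.comap (algebraMap A B)) (B ⧸ P) :=
    Algebra.IsIntegral.quotient
  have : Algebra.IsAlgebraic (A ⧸ P.comap (algebraMap A B)) (B ⧸ P) :=
    Algebra.IsIntegral.isAlgebraic
  let f : (B ⧸ P) →ₐ[A ⧸ P.comap (algebraMap A B)] Ω := IsAlgClosed.lift
  refine ⟨f.toRingHom.comp (Ideal.Quotient.mk P), fun a => ?_⟩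
  have h1 : Ideal.Quotient.mk P (algebraMap A B a) =
      algebraMap (A ⧸ P.comap (algebraMap A B)) (B ⧸ P) (Ideal.Quotient.mk _ a) := rfl
  show f (Ideal.Quotient.mk P (algebraMap A B a)) = χ a
  rw [h1, f.commutes]
  rfl

/-- Abstract form of D2. -/
theorem exists_extend_abstract {A B : Type} [CommRing A] [CommRing B] [Algebra A B]
    [Module.Finite ℤ B] (hinj : Function.Injective (algebraMap A B))
    (O' : Type) [CommRing O'] [IsDomain O'] [IsDiscreteValuationRing O']
    [IsAdicComplete (maximalIdeal O') O'] [Finite (ResidueField O')] [CharZero O']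
    (χ : A →+* O') :
    ∃ (O'' : Type) (_ : CommRing O'') (_ : IsDomain O'') (_ : IsDiscreteValuationRing O'')
      (_ : IsAdicComplete (maximalIdeal O'') O'') (_ : Finite (ResidueField O''))
      (_ : CharZero O'') (_ : Algebra O' O'') (_ : Module.Finite O' O'')
      (_ : IsLocalHom (algebraMap O' O'')),
      Function.Injective (algebraMap O' O'') ∧
      ∃ lam : B →+* O'', ∀ a : A, lam (algebraMap A B a) = algebraMap O' O'' (χ a) := by
  classical
  have hintZ : Algebra.IsIntegral ℤ B := Algebra.IsIntegral.of_finite ℤ B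
  have hint : Algebra.IsIntegral A B := ⟨fun b => (hintZ.isIntegral b).tower_top⟩
  obtain ⟨μ, hμ⟩ := exists_ringHom_extend hinj
    ((algebraMap O' (AlgebraicClosure (FractionRing O'))).comp χ)
  obtain ⟨s, hs⟩ := (Module.Finite.fg_top : (⊤ : Submodule ℤ B).FG)
  have hμint : ∀ b : B, IsIntegral (FractionRing O') (μ b) := fun b =>
    (hintZ.isIntegral b).map_of_comp_eq (Int.castRingHom (FractionRing O')) μ
      (RingHom.ext_int _ _)
  let L : IntermediateField (FractionRing O') (AlgebraicClosure (FractionRing O')) :=
    IntermediateField.adjoin (FractionRing O') (μ '' (s : Set B))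
  have hfin : Finite (μ '' (s : Set B)) := (s.finite_toSet.image μ).to_subtype
  have hL : FiniteDimensional (FractionRing O') L :=
    IntermediateField.finiteDimensional_adjoin (fun x hx => by
      obtain ⟨b, -, rfl⟩ := hx
      exact hμint b)
  have hmem : ∀ b : B, μ b ∈ L := by
    intro b
    have hb : b ∈ Submodule.span ℤ (s : Set B) := hs ▸ Submodule.mem_top
    induction hb using Submodule.span_induction with
    | mem x hx => exact IntermediateField.subset_adjoin _ _ ⟨x, hx, rfl⟩
    | zero => rw [map_zero]; exact L.zero_mem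
    | add x y _ _ hx hy => rw [map_add]; exact L.add_mem hx hy
    | smul n x _ hx =>
      rw [zsmul_eq_mul, map_mul, map_intCast]
      exact L.mul_mem (intCast_mem L n) hx
  let μL : B →+* L := μ.codRestrict L hmem
  have hμLint : ∀ b : B, μL b ∈ integralClosure O' L := fun b =>
    (hintZ.isIntegral b).map_of_comp_eq (Int.castRingHom O') μL (RingHom.ext_int _ _)
  have hdvr := isDVR_integralClosure O' L
  refine ⟨integralClosure O' L, inferInstance, inferInstance, hdvr,
    isAdicComplete_integralClosure O' L, finite_residueField_integralClosure O' L,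
    charZero_integralClosure O' L, inferInstance, finite_integralClosure O' L,
    isLocalHom_integralClosure O' L, algebraMap_integralClosure_injective O' L,
    μL.codRestrict (integralClosure O' L).toSubring hμLint, fun a => ?_⟩
  apply Subtype.ext
  apply Subtype.ext
  exact hμ a

/-- **D2**: a point of the Hecke algebra away from `S` extends to the full Hecke algebra after a
finite extension of the coefficient ring. -/
theorem exists_extend (N : ℕ) [NeZero N] (S : Set ℕ)
    (O' : Type) [CommRing O'] [IsDomain O'] [IsDiscreteValuationRing O']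
    [IsAdicComplete (maximalIdeal O') O'] [Finite (ResidueField O')] [CharZero O']
    (χ : CuspForm.heckeAlgebra N 2 S →+* O') :
    ∃ (O'' : Type) (_ : CommRing O'') (_ : IsDomain O'') (_ : IsDiscreteValuationRing O'')
      (_ : IsAdicComplete (maximalIdeal O'') O'') (_ : Finite (ResidueField O''))
      (_ : CharZero O'') (_ : Algebra O' O'') (_ : Module.Finite O' O'')
      (_ : IsLocalHom (algebraMap O' O'')),
      Function.Injective (algebraMap O' O'') ∧
      ∃ lam : CuspForm.heckeAlgebra N 2 (∅ : Set ℕ) →+* O'',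
        ∀ t : CuspForm.heckeAlgebra N 2 S,
          lam (Subalgebra.inclusion (CuspForm.heckeAlgebra_mono (Set.empty_subset S)) t) =
            algebraMap O' O'' (χ t) := by
  let _ : Algebra (CuspForm.heckeAlgebra N 2 S) (CuspForm.heckeAlgebra N 2 (∅ : Set ℕ)) :=
    (Subalgebra.inclusion (CuspForm.heckeAlgebra_mono (N := N) (k := 2)
      (Set.empty_subset S))).toRingHom.toAlgebra
  have : Module.Finite ℤ (CuspForm.heckeAlgebra N 2 (∅ : Set ℕ)) :=
    Fermat.Agent.S22b.finite_heckeAlgebra N 2 ∅
  exact exists_extend_abstract (A := CuspForm.heckeAlgebra N 2 S)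
    (B := CuspForm.heckeAlgebra N 2 (∅ : Set ℕ))
    (Subalgebra.inclusion_injective (CuspForm.heckeAlgebra_mono (N := N) (k := 2)
      (Set.empty_subset S))) O' χ

end Fermat.Agent.ESlib.PartD
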