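import Mathlib
import Fermat.Agent.ES.D.DVRExt

/-!
# T-ES, Part D5c: a maximal ideal over `p` of a finite flat `ℤ`-algebra is the contraction of the
maximal ideal of a complete DVR of characteristic zero
-/

set_option autoImplicit false

namespace Fermat.Agent.ESlib.PartD

open IsLocalRing TensorProduct

attribute [local instance] FractionRing.liftAlgebra FractionRing.isScalarTower_liftAlgebra

/-- A domain, finite and faithful over a complete DVR, embeds integrally in a complete DVR. -/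
theorem exists_dvr_of_finite_domain (O : Type) [CommRing O] [IsDomain O]
    [IsDiscreteValuationRing O] [IsAdicComplete (maximalIdeal O) O] [CharZero O]
    [Finite (ResidueField O)]
    (D : Type) [CommRing D] [IsDomain D] [Algebra O D] [Module.Finite O D]
    (hinj : Function.Injective (algebraMap O D)) :
    ∃ (O' : Type) (_ : CommRing O') (_ : IsDomain O') (_ : IsDiscreteValuationRing O')
      (_ : IsAdicComplete (maximalIdeal O') O') (_ : Finite (ResidueField O'))
      (_ : CharZero O') (ι : D →+* O'), Function.Injective ι ∧ ι.IsIntegral := by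
  have : FaithfulSMul O D := (faithfulSMul_iff_algebraMap_injective O D).mpr hinj
  have : Algebra.IsIntegral O D := Algebra.IsIntegral.of_finite O D
  have : Algebra.IsAlgebraic O D := inferInstance
  have hfd : FiniteDimensional (FractionRing O) (FractionRing D) :=
    Module.Finite.of_isLocalization O D (nonZeroDivisors O)
  have hdvr := isDVR_integralClosure O (FractionRing D)
  have hmem : ∀ d : D, algebraMap D (FractionRing D) d ∈ integralClosure O (FractionRing D) :=
    fun d => (Algebra.IsIntegral.isIntegral (R := O) d).map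
      (IsScalarTower.toAlgHom O D (FractionRing D))
  refine ⟨integralClosure O (FractionRing D), inferInstance, inferInstance, hdvr,
    isAdicComplete_integralClosure O (FractionRing D),
    finite_residueField_integralClosure O (FractionRing D),
    charZero_integralClosure O (FractionRing D),
    (algebraMap D (FractionRing D)).codRestrict
      (integralClosure O (FractionRing D)).toSubring hmem, ?_, ?_⟩
  · intro a b hab
    apply IsFractionRing.injective D (FractionRing D)
    exact congrArg Subtype.val hab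
  · intro x
    have h1 : IsIntegral O x := Algebra.IsIntegral.isIntegral x
    obtain ⟨f, hf, hfx⟩ := h1
    refine ⟨f.map (algebraMap O D), hf.map _, ?_⟩
    rw [Polynomial.eval₂_map]
    have : ((algebraMap D (FractionRing D)).codRestrict
      (integralClosure O (FractionRing D)).toSubring hmem).comp (algebraMap O D) =
        algebraMap O (integralClosure O (FractionRing D)) := by
      ext r
      show algebraMap D (FractionRing D) (algebraMap O D r) = algebraMap O (FractionRing D) r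
      rw [← IsScalarTower.algebraMap_apply]
    rw [this]
    exact hfx

/-- Deligne-Serre type lifting: a maximal ideal containing `p` of a finite torsion free
`ℤ`-algebra is the contraction of the maximal ideal of a complete DVR of characteristic `0`. -/
theorem exists_dvr_point (p : ℕ) [hp : Fact p.Prime] (T : Type) [CommRing T] [Module.Finite ℤ T]
    [IsAddTorsionFree T] (𝔪 : Ideal T) [h𝔪 : 𝔪.IsMaximal] (hp𝔪 : (p : T) ∈ 𝔪) :
    ∃ (O' : Type) (_ : CommRing O') (_ : IsDomain O') (_ : IsDiscreteValuationRing O')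
      (_ : IsAdicComplete (maximalIdeal O') O') (_ : Finite (ResidueField O'))
      (_ : CharZero O') (χ : T →+* O'), (maximalIdeal O').comap χ = 𝔪 := by
  let _ : Field (T ⧸ 𝔪) := Ideal.Quotient.field 𝔪
  have hp0 : ((p : ℕ) : T ⧸ 𝔪) = 0 := by
    have := Ideal.Quotient.eq_zero_iff_mem.mpr hp𝔪
    simpa using this
  have : CharP (T ⧸ 𝔪) p := ringChar.of_eq (CharP.ringChar_of_prime_eq_zero hp.out hp0)
  have : Module.Free ℤ T := inferInstance
  have : Module.Flat ℤ T := inferInstance
  let f1 : ℤ_[p] →ₐ[ℤ] (T ⧸ 𝔪) :=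
    ((ZMod.castHom (dvd_refl p) (T ⧸ 𝔪)).comp PadicInt.toZMod).toIntAlgHom
  let f2 : T →ₐ[ℤ] (T ⧸ 𝔪) := (Ideal.Quotient.mk 𝔪).toIntAlgHom
  let π : (ℤ_[p] ⊗[ℤ] T) →ₐ[ℤ] (T ⧸ 𝔪) := Algebra.TensorProduct.productMap f1 f2
  have hπ : ∀ t : T, π (1 ⊗ₜ t) = Ideal.Quotient.mk 𝔪 t := fun t =>
    Algebra.TensorProduct.productMap_right_apply f1 f2 t
  have hπsurj : Function.Surjective π.toRingHom := fun x => by
    obtain ⟨t, rfl⟩ := Ideal.Quotient.mk_surjective x
    exact ⟨1 ⊗ₜ t, hπ t⟩
  have hmax : (RingHom.ker π.toRingHom).IsMaximal := RingHom.ker_isMaximal_of_surjective _ hπsurj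
  have hflat : Module.Flat ℤ_[p] (ℤ_[p] ⊗[ℤ] T) := inferInstance
  obtain ⟨Q, hQle, hQprime, hQover⟩ :=
    Ideal.exists_ideal_le_liesOver_of_le (p := (⊥ : Ideal ℤ_[p]))
      (q := (RingHom.ker π.toRingHom).under ℤ_[p]) (RingHom.ker π.toRingHom) bot_le
  have hinj : Function.Injective (algebraMap ℤ_[p] ((ℤ_[p] ⊗[ℤ] T) ⧸ Q)) := by
    rw [injective_iff_map_eq_zero]
    intro r hr
    have h1 : algebraMap ℤ_[p] (ℤ_[p] ⊗[ℤ] T) r ∈ Q := Ideal.Quotient.eq_zero_iff_mem.mp hr
    have h2 : r ∈ Q.under ℤ_[p] := h1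
    rw [← hQover.over] at h2
    exact h2
  have : Finite (ResidueField ℤ_[p]) := Finite.of_equiv _ (PadicInt.residueField (p := p)).symm.toEquiv
  obtain ⟨O', i1, i2, i3, i4, i5, i6, ι, hι, hιint⟩ :=
    exists_dvr_of_finite_domain ℤ_[p] ((ℤ_[p] ⊗[ℤ] T) ⧸ Q) hinj
  let πb : ((ℤ_[p] ⊗[ℤ] T) ⧸ Q) →+* (T ⧸ 𝔪) :=
    Ideal.Quotient.lift Q π.toRingHom (fun a ha => hQle ha)
  have hπb : ∀ x, πb (Ideal.Quotient.mk Q x) = π x := fun x => Ideal.Quotient.lift_mk _ _ _
  have hπbsurj : Function.Surjective πb := fun x => by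
    obtain ⟨y, hy⟩ := hπsurj x
    exact ⟨Ideal.Quotient.mk Q y, (hπb y).trans hy⟩
  have hnmax : (RingHom.ker πb).IsMaximal := RingHom.ker_isMaximal_of_surjective _ hπbsurj
  let _ : Algebra ((ℤ_[p] ⊗[ℤ] T) ⧸ Q) O' := ι.toAlgebra
  have : Algebra.IsIntegral ((ℤ_[p] ⊗[ℤ] T) ⧸ Q) O' := ⟨hιint⟩
  obtain ⟨M, hM, hMc⟩ := Ideal.exists_ideal_over_maximal_of_isIntegral (S := O') (RingHom.ker πb)
    (by
      have : RingHom.ker (algebraMap ((ℤ_[p] ⊗[ℤ] T) ⧸ Q) O') = ⊥ :=
        (RingHom.injective_iff_ker_eq_bot _).mp hι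
      rw [this]; exact bot_le)
  have hMeq : M = maximalIdeal O' := IsLocalRing.eq_maximalIdeal hM
  refine ⟨O', i1, i2, i3, i4, i5, i6, ι.comp ((Ideal.Quotient.mk Q).comp
    (Algebra.TensorProduct.includeRight : T →ₐ[ℤ] ℤ_[p] ⊗[ℤ] T).toRingHom), ?_⟩
  ext t
  rw [← hMeq, Ideal.mem_comap]
  have h1 : (ι.comp ((Ideal.Quotient.mk Q).comp
      (Algebra.TensorProduct.includeRight : T →ₐ[ℤ] ℤ_[p] ⊗[ℤ] T).toRingHom)) t ∈ M ↔
      Ideal.Quotient.mk Q (1 ⊗ₜ t) ∈ M.comap (algebraMap ((ℤ_[p] ⊗[ℤ] T) ⧸ Q) O') := Iff.rfl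
  rw [h1, hMc, RingHom.mem_ker, hπb, hπ, Ideal.Quotient.eq_zero_iff_mem]

end Fermat.Agent.ESlib.PartD
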