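import Mathlib
import Fermat.Prelude.Def_GaloisRep_Adic
import Fermat.Agent.ES.D.Cyclo
import Fermat.Agent.ES.D.DVRExt

/-!
# T-ES, Part D3b (a): the sum of two characters, and the scalar case
-/

set_option autoImplicit false

namespace Fermat.Agent.ESlib.PartD

open IsLocalRing Polynomial

local notation "Qb" => AlgebraicClosure ℚ
local notation "GalQ" => (AlgebraicClosure ℚ ≃ₐ[ℚ] AlgebraicClosure ℚ)

section diag

variable {O : Type} [CommRing O] [IsLocalRing O]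

/-- adic continuity of a character -/
def CharCont (χ : GalQ →* Oˣ) : Prop :=
  ∀ n : ℕ, ∃ L : IntermediateField ℚ Qb, FiniteDimensional ℚ L ∧
    ∀ σ : GalQ, (∀ x ∈ L, σ x = x) → ((χ σ : Oˣ) : O) - 1 ∈ maximalIdeal O ^ n

lemma CharCont.div {χ₁ χ₂ : GalQ →* Oˣ} (h₁ : CharCont χ₁) (h₂ : CharCont χ₂) :
    CharCont (χ₁ / χ₂) := by
  intro n
  obtain ⟨L₁, hL₁, H₁⟩ := h₁ n
  obtain ⟨L₂, hL₂, H₂⟩ := h₂ n
  refine ⟨L₁ ⊔ L₂, IntermediateField.finiteDimensional_sup L₁ L₂, fun σ hσ => ?_⟩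
  have e₁ := H₁ σ (fun x hx => hσ x (le_sup_left (b := L₂) hx))
  have e₂ := H₂ σ (fun x hx => hσ x (le_sup_right (a := L₁) hx))
  have h : (((χ₁ / χ₂) σ : Oˣ) : O) - 1 =
      ((((χ₁ σ : Oˣ) : O) - 1) - (((χ₂ σ : Oˣ) : O) - 1)) * (((χ₂ σ)⁻¹ : Oˣ) : O) := by
    rw [MonoidHom.div_apply, div_eq_mul_inv, Units.val_mul]
    have : ((χ₂ σ : Oˣ) : O) * (((χ₂ σ)⁻¹ : Oˣ) : O) = 1 := Units.mul_inv _
    linear_combination (1 : O) * this
  rw [h]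
  exact Ideal.mul_mem_right _ _ (Ideal.sub_mem _ e₁ e₂)

omit [IsLocalRing O] in
lemma mem_smul_top_of_forall_mem (I : Ideal O) (v : Fin 2 → O) (h : ∀ i, v i ∈ I) :
    v ∈ I • (⊤ : Submodule O (Fin 2 → O)) := by
  rw [pi_eq_sum_univ v]
  exact Submodule.sum_mem _ fun i _ => Submodule.smul_mem_smul (h i) Submodule.mem_top

/-- the direct sum of two characters -/
noncomputable def diagRep (χ₁ χ₂ : GalQ →* Oˣ) (h₁ : CharCont χ₁) (h₂ : CharCont χ₂) :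
    GaloisRepAdic O where
  V := Fin 2 → O
  finrank_eq := by simp
  ρ :=
    { toFun := fun σ => Matrix.toLin' (Matrix.diagonal ![((χ₁ σ : Oˣ) : O), ((χ₂ σ : Oˣ) : O)])
      map_one' := by
        have : (![(((χ₁ 1 : Oˣ)) : O), ((χ₂ 1 : Oˣ) : O)] : Fin 2 → O) = fun _ => 1 := by
          ext i; fin_cases i <;> simp
        rw [this, Matrix.diagonal_one, Matrix.toLin'_one]
        rfl
      map_mul' := fun σ τ => by
        rw [Module.End.mul_eq_comp, ← Matrix.toLin'_mul, Matrix.diagonal_mul_diagonal]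
        congr 2
        ext i; fin_cases i <;> simp }
  isAdicContinuous := by
    intro n
    obtain ⟨L₁, hL₁, H₁⟩ := h₁ n
    obtain ⟨L₂, hL₂, H₂⟩ := h₂ n
    refine ⟨L₁ ⊔ L₂, IntermediateField.finiteDimensional_sup L₁ L₂, fun σ hσ v => ?_⟩
    have e₁ := H₁ σ (fun x hx => hσ x (le_sup_left (b := L₂) hx))
    have e₂ := H₂ σ (fun x hx => hσ x (le_sup_right (a := L₁) hx))
    apply mem_smul_top_of_forall_mem
    intro i
    fin_cases i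
    · have : (Matrix.toLin' (Matrix.diagonal ![((χ₁ σ : Oˣ) : O), ((χ₂ σ : Oˣ) : O)]) v - v) 0 =
          (((χ₁ σ : Oˣ) : O) - 1) * v 0 := by
        simp; ring
      exact this ▸ Ideal.mul_mem_right _ _ e₁
    · have : (Matrix.toLin' (Matrix.diagonal ![((χ₁ σ : Oˣ) : O), ((χ₂ σ : Oˣ) : O)]) v - v) 1 =
          (((χ₂ σ : Oˣ) : O) - 1) * v 1 := by
        simp; ring
      exact this ▸ Ideal.mul_mem_right _ _ e₂

lemma diagRep_apply (χ₁ χ₂ : GalQ →* Oˣ) (h₁ : CharCont χ₁) (h₂ : CharCont χ₂) (σ : GalQ) :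
    (diagRep χ₁ χ₂ h₁ h₂).ρ σ =
      Matrix.toLin' (Matrix.diagonal ![((χ₁ σ : Oˣ) : O), ((χ₂ σ : Oˣ) : O)]) := rfl

lemma diagRep_eq_one (χ₁ χ₂ : GalQ →* Oˣ) (h₁ : CharCont χ₁) (h₂ : CharCont χ₂) {σ : GalQ}
    (e₁ : χ₁ σ = 1) (e₂ : χ₂ σ = 1) : (diagRep χ₁ χ₂ h₁ h₂).ρ σ = 1 := by
  have : (![(((1 : Oˣ)) : O), ((1 : Oˣ) : O)] : Fin 2 → O) = fun _ => 1 := by
    ext i; fin_cases i <;> simp
  have h2 : Matrix.toLin' (Matrix.diagonal ![(((1 : Oˣ)) : O), ((1 : Oˣ) : O)]) =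
      LinearMap.id := by
    rw [this, Matrix.diagonal_one, Matrix.toLin'_one]
  rw [diagRep_apply, e₁, e₂]
  exact h2

lemma charpoly_diagRep (χ₁ χ₂ : GalQ →* Oˣ) (h₁ : CharCont χ₁) (h₂ : CharCont χ₂) (σ : GalQ) :
    LinearMap.charpoly ((diagRep χ₁ χ₂ h₁ h₂).ρ σ) =
      (X - C ((χ₁ σ : Oˣ) : O)) * (X - C ((χ₂ σ : Oˣ) : O)) := by
  have h := LinearMap.charpoly_toMatrix
    (Matrix.toLin' (Matrix.diagonal ![((χ₁ σ : Oˣ) : O), ((χ₂ σ : Oˣ) : O)]))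
    (Pi.basisFun O (Fin 2))
  rw [LinearMap.toMatrix_eq_toMatrix', LinearMap.toMatrix'_toLin', Matrix.charpoly_diagonal,
    Fin.prod_univ_two] at h
  exact h.symm

end diag

section scalar

/-- **D3b, case (a)**: if all `ρ σ` are scalars, replace `ρ` by `ψ ⊕ ε/ψ`. -/
theorem exists_rep_of_scalar (p : ℕ) [Fact p.Prime] (O : Type) [CommRing O] [IsLocalRing O]
    [IsAdicComplete (IsLocalRing.maximalIdeal O) O]
    (hp : (p : O) ∈ IsLocalRing.maximalIdeal O) (T : Finset ℕ) (hpT : p ∈ T) (a : ℕ → O)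
    (ρ : GaloisRepAdic O) (hunr : ∀ ℓ : ℕ, ℓ.Prime → ℓ ∉ T → ρ.IsUnramifiedAt ℓ)
    (hfrob : ∀ ℓ : ℕ, ℓ.Prime → ℓ ∉ T → ∀ A : ValuationSubring (AlgebraicClosure ℚ),
      A.LiesOverPrime ℓ → ∀ σ, A.IsFrobeniusAt σ ℓ →
        ρ.ρ σ * ρ.ρ σ - a ℓ • ρ.ρ σ + (ℓ : O) • 1 = 0)
    (hsc : ∀ σ, ∃ c : O, ρ.ρ σ = c • 1) :
    ∃ ρ' : GaloisRepAdic O, (∀ ℓ : ℕ, ℓ.Prime → ℓ ∉ T → ρ'.IsUnramifiedAt ℓ) ∧
      ∀ ℓ : ℕ, ℓ.Prime → ℓ ∉ T → ∀ A : ValuationSubring (AlgebraicClosure ℚ),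
        A.LiesOverPrime ℓ → ∀ σ, A.IsFrobeniusAt σ ℓ →
          LinearMap.charpoly (ρ'.ρ σ) = X ^ 2 - C (a ℓ) * X + C ((ℓ : O)) := by
  classical
  let b : Module.Basis (Fin 2) O ρ.V := Module.finBasisOfFinrankEq O ρ.V ρ.finrank_eq
  let sc : Module.End O ρ.V → O := fun f => b.coord 0 (f (b 0))
  have hsc1 : ∀ c : O, sc (c • 1) = c := by
    intro c
    simp [sc]
  have hsc' : ∀ σ, ρ.ρ σ = sc (ρ.ρ σ) • 1 := by
    intro σ
    obtain ⟨c, hc⟩ := hsc σ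
    rw [hc, hsc1]
  let ψ₀ : GalQ →* O :=
    { toFun := fun σ => sc (ρ.ρ σ)
      map_one' := by
        have := hsc1 1
        rwa [one_smul, ← map_one ρ.ρ] at this
      map_mul' := fun σ τ => by
        have h1 : ρ.ρ (σ * τ) = (sc (ρ.ρ σ) * sc (ρ.ρ τ)) • 1 := by
          rw [map_mul]
          conv_lhs => rw [hsc' σ, hsc' τ]
          rw [smul_mul_smul_comm, one_mul]
        rw [h1, hsc1] }
  let ψ : GalQ →* Oˣ := ψ₀.toHomUnits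
  have hψ : ∀ σ, ρ.ρ σ = ((ψ σ : Oˣ) : O) • 1 := hsc'
  have hψc : CharCont ψ := by
    intro n
    obtain ⟨L, hL, h⟩ := ρ.isAdicContinuous n
    refine ⟨L, hL, fun σ hσ => ?_⟩
    have h1 := apply_mem_of_mem_smul_top _ (b.coord 0) (h σ hσ (b 0))
    have h2 : b.coord 0 (ρ.ρ σ (b 0) - b 0) = ((ψ σ : Oˣ) : O) - 1 := by
      rw [map_sub]
      congr 1
      simp
    rwa [h2] at h1
  obtain ⟨ι⟩ := exists_padicHom p O (maximalIdeal O) hp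
  have hεc : CharCont (cycloO ι) := cycloO_sub_one_mem ι (maximalIdeal O) hp
  have hne : ∀ ℓ : ℕ, ℓ ∉ T → ℓ ≠ p := fun ℓ hℓ h => hℓ (h ▸ hpT)
  refine ⟨diagRep ψ (cycloO ι / ψ) hψc (hεc.div hψc), ?_, ?_⟩
  · intro ℓ hℓ hℓT A hA σ hσ
    have h1 : ψ σ = 1 := by
      apply Units.ext
      have h2 : ((ψ σ : Oˣ) : O) = sc (ρ.ρ σ) := rfl
      rw [h2, hunr ℓ hℓ hℓT A hA σ hσ, Units.val_one]
      have := hsc1 1
      rwa [one_smul] at this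
    refine diagRep_eq_one _ _ _ _ h1 ?_
    rw [MonoidHom.div_apply, h1, cycloO_inertia ι hℓ (hne ℓ hℓT) A hA σ hσ, div_one]
  · intro ℓ hℓ hℓT A hA σ hσ
    rw [charpoly_diagRep]
    have he : ((cycloO ι σ : Oˣ) : O) = ℓ := cycloO_frob ι hℓ (hne ℓ hℓT) A hA σ hσ
    have hrel : ((ψ σ : Oˣ) : O) * ((ψ σ : Oˣ) : O) - a ℓ * ((ψ σ : Oˣ) : O) + (ℓ : O) = 0 := by
      have h1 := hfrob ℓ hℓ hℓT A hA σ hσ
      rw [hψ σ, smul_mul_smul_comm, one_mul, smul_smul, ← sub_smul, ← add_smul] at h1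
      have h2 := hsc1 (((ψ σ : Oˣ) : O) * ((ψ σ : Oˣ) : O) - a ℓ * ((ψ σ : Oˣ) : O) + (ℓ : O))
      rw [h1] at h2
      rw [← h2]
      simp [sc]
    set c : Oˣ := ψ σ with hc
    have hd : (((cycloO ι / ψ) σ : Oˣ) : O) = (ℓ : O) * ((c⁻¹ : Oˣ) : O) := by
      rw [MonoidHom.div_apply, div_eq_mul_inv, Units.val_mul, he]
    have hcc : (c : O) * ((c⁻¹ : Oˣ) : O) = 1 := Units.mul_inv c
    have hsum : (c : O) + (ℓ : O) * ((c⁻¹ : Oˣ) : O) = a ℓ := by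
      linear_combination ((c⁻¹ : Oˣ) : O) * hrel + (a ℓ - (c : O)) * hcc
    have hprod : (c : O) * ((ℓ : O) * ((c⁻¹ : Oˣ) : O)) = ℓ := by
      linear_combination (ℓ : O) * hcc
    have key : ∀ x y : O, (X - C x) * (X - C y) = X ^ 2 - C (x + y) * X + C (x * y) := by
      intro x y
      simp only [map_add, map_mul]
      ring
    rw [hd, key, hsum, hprod]

end scalar

end Fermat.Agent.ESlib.PartD
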