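import Mathlib
import Fermat.Prelude.Def_GaloisRep_Adic
import Fermat.Agent.S54lib.FrobExists
import Fermat.Agent.ES.D.Cyclo
import Fermat.Agent.ES.Z.Final

/-!
# T-ES, Part D3b, case (b): determinant = cyclotomic character via Part Z

`forall_scalar_or_charpoly`: a two dimensional adic representation all of whose Frobenius elements
(outside a finite set `T ∋ p`) satisfy `F² - a_ℓ F + ℓ = 0` either consists of scalars, or
`charpoly (ρ Frob_ℓ) = X² - a_ℓ X + ℓ` for all `ℓ ∉ T`.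
-/

set_option autoImplicit false

namespace Fermat.Agent.ESlib.PartD

open Polynomial IsLocalRing
open scoped Pointwise

local notation "Qb" => AlgebraicClosure ℚ
local notation "GalQ" => (AlgebraicClosure ℚ ≃ₐ[ℚ] AlgebraicClosure ℚ)

section Closed

theorem isClosed_of_forall_exists (S : Set GalQ)
    (h : ∀ σ : GalQ, σ ∉ S → ∃ L : IntermediateField ℚ Qb, FiniteDimensional ℚ L ∧
      ∀ τ : GalQ, (∀ x ∈ L, τ x = x) → σ * τ ∉ S) : IsClosed S := by
  rw [← isOpen_compl_iff, isOpen_iff_forall_mem_open]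
  intro σ hσ
  obtain ⟨L, hL, hτ⟩ := h σ hσ
  refine ⟨σ • (L.fixingSubgroup : Set GalQ), ?_, (L.fixingSubgroup_isOpen).leftCoset σ, ?_⟩
  · rintro _ ⟨τ, hτL, rfl⟩
    exact hτ τ (fun x hx => hτL ⟨x, hx⟩)
  · exact ⟨1, L.fixingSubgroup.one_mem, by simp⟩

variable {O : Type} [CommRing O] [IsLocalRing O]

/-- adically continuous functions on `G_ℚ` -/
def AdicCont (f : GalQ → O) : Prop :=
  ∀ n : ℕ, ∃ L : IntermediateField ℚ Qb, FiniteDimensional ℚ L ∧
    ∀ σ τ : GalQ, (∀ x ∈ L, τ x = x) → f (σ * τ) - f σ ∈ maximalIdeal O ^ n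

theorem AdicCont.sub {f g : GalQ → O} (hf : AdicCont f) (hg : AdicCont g) :
    AdicCont (fun σ => f σ - g σ) := by
  intro n
  obtain ⟨L₁, h₁, hf⟩ := hf n
  obtain ⟨L₂, h₂, hg⟩ := hg n
  refine ⟨L₁ ⊔ L₂, inferInstance, fun σ τ hτ => ?_⟩
  have e₁ := hf σ τ (fun x hx => hτ x ((le_sup_left : L₁ ≤ L₁ ⊔ L₂) hx))
  have e₂ := hg σ τ (fun x hx => hτ x ((le_sup_right : L₂ ≤ L₁ ⊔ L₂) hx))
  have : f (σ * τ) - g (σ * τ) - (f σ - g σ) = (f (σ * τ) - f σ) - (g (σ * τ) - g σ) := by ring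
  rw [this]
  exact sub_mem e₁ e₂

theorem AdicCont.mul {f g : GalQ → O} (hf : AdicCont f) (hg : AdicCont g) :
    AdicCont (fun σ => f σ * g σ) := by
  intro n
  obtain ⟨L₁, h₁, hf⟩ := hf n
  obtain ⟨L₂, h₂, hg⟩ := hg n
  refine ⟨L₁ ⊔ L₂, inferInstance, fun σ τ hτ => ?_⟩
  have e₁ := hf σ τ (fun x hx => hτ x ((le_sup_left : L₁ ≤ L₁ ⊔ L₂) hx))
  have e₂ := hg σ τ (fun x hx => hτ x ((le_sup_right : L₂ ≤ L₁ ⊔ L₂) hx))
  have : f (σ * τ) * g (σ * τ) - f σ * g σ =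
      g (σ * τ) * (f (σ * τ) - f σ) + f σ * (g (σ * τ) - g σ) := by ring
  rw [this]
  exact add_mem (Ideal.mul_mem_left _ _ e₁) (Ideal.mul_mem_left _ _ e₂)

theorem AdicCont.isClosed_eq_zero [IsHausdorff (maximalIdeal O) O] {f : GalQ → O}
    (hf : AdicCont f) : IsClosed {σ : GalQ | f σ = 0} := by
  refine isClosed_of_forall_exists _ fun σ hσ => ?_
  have hne : f σ ≠ 0 := hσ
  have hex : ∃ n : ℕ, f σ ∉ maximalIdeal O ^ n := by
    by_contra hcon
    push Not at hcon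
    apply hne
    refine IsHausdorff.haus (I := maximalIdeal O) inferInstance (f σ) fun n => ?_
    rw [SModEq.zero, smul_eq_mul, Ideal.mul_top]
    exact hcon n
  obtain ⟨n, hn⟩ := hex
  obtain ⟨L, hL, h⟩ := hf n
  refine ⟨L, hL, fun τ hτ h0 => hn ?_⟩
  have h1 := h σ τ hτ
  have h0' : f (σ * τ) = 0 := h0
  rw [h0', zero_sub] at h1
  simpa using neg_mem h1

end Closed

section Rep

variable {O : Type} [CommRing O] [IsLocalRing O] (ρ : GaloisRepAdic O)

/-- a basis of the representation space -/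
noncomputable def rbasis : Module.Basis (Fin 2) O ρ.V :=
  Module.finBasisOfFinrankEq O ρ.V ρ.finrank_eq

/-- the matrix of `ρ σ` -/
noncomputable def mat (σ : GalQ) : Matrix (Fin 2) (Fin 2) O :=
  LinearMap.toMatrix (rbasis ρ) (rbasis ρ) (ρ.ρ σ)

theorem mat_mul (σ τ : GalQ) : mat ρ (σ * τ) = mat ρ σ * mat ρ τ := by
  rw [mat, map_mul, LinearMap.toMatrix_mul]
  rfl

theorem mat_one : mat ρ 1 = 1 := by
  rw [mat, map_one]
  exact LinearMap.toMatrix_one _

theorem repr_mem (n : ℕ) {x : ρ.V} (hx : x ∈ (maximalIdeal O ^ n) • (⊤ : Submodule O ρ.V))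
    (i : Fin 2) : (rbasis ρ).repr x i ∈ maximalIdeal O ^ n := by
  refine Submodule.smul_induction_on (p := fun x => (rbasis ρ).repr x i ∈ maximalIdeal O ^ n) hx
    ?_ ?_
  · intro r hr v _
    rw [map_smul, Finsupp.smul_apply, smul_eq_mul]
    exact Ideal.mul_mem_right _ _ hr
  · intro x y hx hy
    rw [map_add, Finsupp.add_apply]
    exact add_mem hx hy

theorem mat_sub_one_mem (n : ℕ) : ∃ L : IntermediateField ℚ Qb, FiniteDimensional ℚ L ∧
    ∀ τ : GalQ, (∀ x ∈ L, τ x = x) → ∀ i j, (mat ρ τ - 1) i j ∈ maximalIdeal O ^ n := by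
  obtain ⟨L, hL, h⟩ := ρ.isAdicContinuous n
  refine ⟨L, hL, fun τ hτ i j => ?_⟩
  have h1 := repr_mem ρ n (h τ hτ (rbasis ρ j)) i
  have h2 : (mat ρ τ - 1) i j = (rbasis ρ).repr (ρ.ρ τ (rbasis ρ j) - rbasis ρ j) i := by
    rw [Matrix.sub_apply, mat, LinearMap.toMatrix_apply, map_sub, Finsupp.sub_apply,
      Module.Basis.repr_self, Matrix.one_apply, Finsupp.single_apply]
    congr 1
    by_cases hij : i = j
    · rw [if_pos hij, if_pos hij.symm]
    · rw [if_neg hij, if_neg (fun h => hij h.symm)]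
  rw [h2]
  exact h1

theorem adicCont_mat (i j : Fin 2) : AdicCont (fun σ => mat ρ σ i j) := by
  intro n
  obtain ⟨L, hL, h⟩ := mat_sub_one_mem ρ n
  refine ⟨L, hL, fun σ τ hτ => ?_⟩
  have h1 : mat ρ (σ * τ) - mat ρ σ = mat ρ σ * (mat ρ τ - 1) := by
    rw [mat_mul, mul_sub, mul_one]
  have h2 : mat ρ (σ * τ) i j - mat ρ σ i j = (mat ρ σ * (mat ρ τ - 1)) i j := by
    rw [← h1, Matrix.sub_apply]
  rw [h2, Matrix.mul_apply]
  exact Ideal.sum_mem _ fun k _ => Ideal.mul_mem_left _ _ (h τ hτ k j)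

theorem charpoly_eq_mat (σ : GalQ) :
    LinearMap.charpoly (ρ.ρ σ) = X ^ 2 - C (mat ρ σ).trace * X + C (mat ρ σ).det := by
  rw [← LinearMap.charpoly_toMatrix (ρ.ρ σ) (rbasis ρ), Matrix.charpoly_fin_two]
  rfl

theorem eq_smul_one_of_mat {σ : GalQ} {c : O} (h : mat ρ σ = c • 1) : ρ.ρ σ = c • 1 := by
  apply (LinearMap.toMatrix (rbasis ρ) (rbasis ρ)).injective
  rw [map_smul]
  have : LinearMap.toMatrix (rbasis ρ) (rbasis ρ) (1 : Module.End O ρ.V) = 1 :=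
    LinearMap.toMatrix_one _
  rw [this]
  exact h

theorem mat_relation {σ : GalQ} {a l : O} (h : ρ.ρ σ * ρ.ρ σ - a • ρ.ρ σ + l • 1 = 0) :
    mat ρ σ * mat ρ σ - a • mat ρ σ + l • 1 = 0 := by
  have h1 := congrArg (LinearMap.toMatrix (rbasis ρ) (rbasis ρ)) h
  rw [map_add, map_sub, map_smul, map_smul, LinearMap.toMatrix_mul, map_zero] at h1
  have : LinearMap.toMatrix (rbasis ρ) (rbasis ρ) (1 : Module.End O ρ.V) = 1 :=
    LinearMap.toMatrix_one _
  rw [this] at h1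
  exact h1

end Rep

section Mat

variable {O : Type} [CommRing O]

/-- scalar `2 × 2` matrices -/
def IsScal (M : Matrix (Fin 2) (Fin 2) O) : Prop := M 0 1 = 0 ∧ M 1 0 = 0 ∧ M 0 0 - M 1 1 = 0

theorem isScal_iff (M : Matrix (Fin 2) (Fin 2) O) : IsScal M ↔ ∃ c : O, M = c • 1 := by
  constructor
  · rintro ⟨h1, h2, h3⟩
    refine ⟨M 0 0, ?_⟩
    ext i j
    fin_cases i <;> fin_cases j
    · simp
    · simpa using h1
    · simpa using h2
    · simpa using (sub_eq_zero.mp h3).symm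
  · rintro ⟨c, rfl⟩
    refine ⟨by simp, by simp, by simp⟩

theorem ch_sub (M : Matrix (Fin 2) (Fin 2) O) (a l : O) (h : M * M - a • M + l • 1 = 0) :
    (M.trace - a) * M 0 1 = 0 ∧ (M.trace - a) * M 1 0 = 0 ∧
      (M.trace - a) * (M 0 0 - M 1 1) = 0 ∧ (M.trace - a) * M 0 0 = M.det - l := by
  have h00 := congrFun (congrFun h 0) 0
  have h01 := congrFun (congrFun h 0) 1
  have h10 := congrFun (congrFun h 1) 0
  have h11 := congrFun (congrFun h 1) 1
  simp only [Matrix.add_apply, Matrix.sub_apply, Matrix.mul_apply, Fin.sum_univ_two,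
    Matrix.smul_apply, Matrix.one_apply, smul_eq_mul, Matrix.zero_apply] at h00 h01 h10 h11
  simp only [if_true, Fin.isValue, zero_ne_one, one_ne_zero, if_false, mul_one,
    mul_zero, add_zero] at h00 h01 h10 h11
  rw [Matrix.trace_fin_two, Matrix.det_fin_two]
  refine ⟨?_, ?_, ?_, ?_⟩
  · linear_combination h01
  · linear_combination h10
  · linear_combination h00 - h11
  · linear_combination h00

end Mat

section Main

variable {O : Type} [CommRing O] [IsDomain O] [IsLocalRing O] (ρ : GaloisRepAdic O)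

/-- the subgroup of `σ` with `ρ σ` scalar -/
def scalSubgroup : Subgroup GalQ where
  carrier := {σ | IsScal (mat ρ σ)}
  one_mem' := by
    show IsScal (mat ρ 1)
    rw [mat_one, isScal_iff]
    exact ⟨1, by simp⟩
  mul_mem' := by
    intro σ τ hσ hτ
    have hσ' : IsScal (mat ρ σ) := hσ
    have hτ' : IsScal (mat ρ τ) := hτ
    show IsScal (mat ρ (σ * τ))
    rw [isScal_iff] at hσ' hτ' ⊢
    obtain ⟨c, hc⟩ := hσ'
    obtain ⟨d, hd⟩ := hτ'
    refine ⟨c * d, ?_⟩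
    rw [mat_mul, hc, hd, smul_mul_smul_comm, mul_one]
  inv_mem' := by
    intro σ hσ
    have hσ' : IsScal (mat ρ σ) := hσ
    show IsScal (mat ρ σ⁻¹)
    rw [isScal_iff] at hσ'
    obtain ⟨c, hc⟩ := hσ'
    have h1 : c • mat ρ σ⁻¹ = 1 := by
      have : mat ρ σ * mat ρ σ⁻¹ = 1 := by rw [← mat_mul, mul_inv_cancel, mat_one]
      rwa [hc, smul_mul_assoc, one_mul] at this
    have h00 := congrFun (congrFun h1 0) 0
    have h01 := congrFun (congrFun h1 0) 1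
    have h10 := congrFun (congrFun h1 1) 0
    have h11 := congrFun (congrFun h1 1) 1
    simp only [Matrix.smul_apply, smul_eq_mul, Matrix.one_apply, if_true, Fin.isValue,
      zero_ne_one, one_ne_zero, if_false] at h00 h01 h10 h11
    have hc0 : c ≠ 0 := by
      rintro rfl
      rw [zero_mul] at h00
      exact zero_ne_one h00
    refine ⟨(mul_eq_zero.mp h01).resolve_left hc0, (mul_eq_zero.mp h10).resolve_left hc0, ?_⟩
    have : c * (mat ρ σ⁻¹ 0 0 - mat ρ σ⁻¹ 1 1) = 0 := by rw [mul_sub, h00, h11, sub_self]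
    exact (mul_eq_zero.mp this).resolve_left hc0

theorem mem_scalSubgroup {σ : GalQ} : σ ∈ scalSubgroup ρ ↔ IsScal (mat ρ σ) := Iff.rfl

instance scalSubgroup_normal : (scalSubgroup ρ).Normal := by
  refine ⟨fun σ hσ g => ?_⟩
  rw [mem_scalSubgroup, isScal_iff] at hσ ⊢
  obtain ⟨c, hc⟩ := hσ
  refine ⟨c, ?_⟩
  rw [mat_mul, mat_mul, hc, mul_smul_comm, mul_one, smul_mul_assoc, ← mat_mul, mul_inv_cancel,
    mat_one]

theorem isClosed_scalSubgroup [IsHausdorff (maximalIdeal O) O] :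
    IsClosed (scalSubgroup ρ : Set GalQ) := by
  have h1 := (adicCont_mat ρ 0 1).isClosed_eq_zero
  have h2 := (adicCont_mat ρ 1 0).isClosed_eq_zero
  have h3 := ((adicCont_mat ρ 0 0).sub (adicCont_mat ρ 1 1)).isClosed_eq_zero
  have : (scalSubgroup ρ : Set GalQ) = {σ | mat ρ σ 0 1 = 0} ∩ ({σ | mat ρ σ 1 0 = 0} ∩
      {σ | mat ρ σ 0 0 - mat ρ σ 1 1 = 0}) := by
    ext σ
    rfl
  rw [this]
  exact h1.inter (h2.inter h3)

omit [IsDomain O] in
theorem coe_det_eq (σ : GalQ) : ((ρ.det σ : Oˣ) : O) = (mat ρ σ).det := by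
  rw [mat, LinearMap.det_toMatrix]
  rfl

variable {p : ℕ} [Fact p.Prime] (ι : ℤ_[p] →+* O)

omit [IsDomain O] in
theorem adicCont_cycloO (hp : (p : O) ∈ maximalIdeal O) :
    AdicCont (fun σ => ((cycloO ι σ : Oˣ) : O)) := by
  intro n
  obtain ⟨L, hL, h⟩ := cycloO_sub_one_mem ι (maximalIdeal O) hp n
  refine ⟨L, hL, fun σ τ hτ => ?_⟩
  have : ((cycloO ι (σ * τ) : Oˣ) : O) - ((cycloO ι σ : Oˣ) : O) =
      ((cycloO ι σ : Oˣ) : O) * (((cycloO ι τ : Oˣ) : O) - 1) := by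
    rw [map_mul, Units.val_mul]
    ring
  rw [this]
  exact Ideal.mul_mem_left _ _ (h τ hτ)

/-- the subgroup `det ρ = ε` -/
noncomputable def detSubgroup : Subgroup GalQ := (ρ.det / cycloO ι).ker

omit [IsDomain O] in
theorem mem_detSubgroup {σ : GalQ} :
    σ ∈ detSubgroup ρ ι ↔ (mat ρ σ).det - ((cycloO ι σ : Oˣ) : O) = 0 := by
  rw [detSubgroup, MonoidHom.mem_ker, MonoidHom.div_apply, div_eq_one, sub_eq_zero, ← coe_det_eq,
    Units.ext_iff]

instance detSubgroup_normal : (detSubgroup ρ ι).Normal := by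
  unfold detSubgroup
  infer_instance

theorem isClosed_detSubgroup [IsHausdorff (maximalIdeal O) O] (hp : (p : O) ∈ maximalIdeal O) :
    IsClosed (detSubgroup ρ ι : Set GalQ) := by
  have hdet : AdicCont (fun σ => (mat ρ σ).det) := by
    have := ((adicCont_mat ρ 0 0).mul (adicCont_mat ρ 1 1)).sub
      ((adicCont_mat ρ 0 1).mul (adicCont_mat ρ 1 0))
    have e : (fun σ => (mat ρ σ).det) =
        fun σ => mat ρ σ 0 0 * mat ρ σ 1 1 - mat ρ σ 0 1 * mat ρ σ 1 0 :=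
      funext fun σ => Matrix.det_fin_two _
    rw [e]
    exact this
  have h := (hdet.sub (adicCont_cycloO ι hp)).isClosed_eq_zero
  have : (detSubgroup ρ ι : Set GalQ) =
      {σ | (mat ρ σ).det - ((cycloO ι σ : Oˣ) : O) = 0} := by
    ext σ
    exact mem_detSubgroup ρ ι
  rw [this]
  exact h

end Main

/-- **D3b, case (b).** -/
theorem forall_scalar_or_charpoly (p : ℕ) [Fact p.Prime] (O : Type) [CommRing O] [IsDomain O]
    [IsDiscreteValuationRing O] [IsAdicComplete (IsLocalRing.maximalIdeal O) O]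
    (hp : (p : O) ∈ IsLocalRing.maximalIdeal O) (T : Finset ℕ) (hpT : p ∈ T) (a : ℕ → O)
    (ρ : GaloisRepAdic O)
    (hfrob : ∀ ℓ : ℕ, ℓ.Prime → ℓ ∉ T → ∀ A : ValuationSubring (AlgebraicClosure ℚ),
      A.LiesOverPrime ℓ → ∀ σ, A.IsFrobeniusAt σ ℓ →
        ρ.ρ σ * ρ.ρ σ - a ℓ • ρ.ρ σ + (ℓ : O) • 1 = 0) :
    (∀ σ, ∃ c : O, ρ.ρ σ = c • 1) ∨
    (∀ ℓ : ℕ, ℓ.Prime → ℓ ∉ T → ∀ A : ValuationSubring (AlgebraicClosure ℚ),
      A.LiesOverPrime ℓ → ∀ σ, A.IsFrobeniusAt σ ℓ →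
        LinearMap.charpoly (ρ.ρ σ) = X ^ 2 - C (a ℓ) * X + C ((ℓ : O))) := by
  obtain ⟨ι⟩ := exists_padicHom p O (maximalIdeal O) hp
  have hne : ∀ ℓ : ℕ, ℓ ∉ T → ℓ ≠ p := fun ℓ hℓ h => hℓ (h ▸ hpT)
  have hF : ∀ l : ℕ, l.Prime → l ∉ T → ∃ A : ValuationSubring (AlgebraicClosure ℚ),
      A.LiesOverPrime l ∧ ∃ σ : GalQ, A.IsFrobeniusAt σ l ∧
        (σ ∈ detSubgroup ρ ι ∨ σ ∈ scalSubgroup ρ) := by
    intro l hl hlT
    obtain ⟨A, hA⟩ := Fermat.Agent.FrobExists.exists_liesOverPrime l hl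
    obtain ⟨σ, hσ⟩ := Fermat.Agent.FrobExists.exists_isFrobeniusAt A hl hA
    refine ⟨A, hA, σ, hσ, ?_⟩
    obtain ⟨e1, e2, e3, e4⟩ := ch_sub (mat ρ σ) (a l) (l : O)
      (mat_relation ρ (hfrob l hl hlT A hA σ hσ))
    by_cases ht : (mat ρ σ).trace - a l = 0
    · left
      rw [mem_detSubgroup, cycloO_frob ι hl (hne l hlT) A hA σ hσ, ← e4, ht, zero_mul]
    · right
      exact ⟨(mul_eq_zero.mp e1).resolve_left ht, (mul_eq_zero.mp e2).resolve_left ht,
        (mul_eq_zero.mp e3).resolve_left ht⟩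
  rcases eq_top_or_eq_top_of_frobenius_mem (detSubgroup ρ ι) (scalSubgroup ρ)
    (isClosed_detSubgroup ρ ι hp) (isClosed_scalSubgroup ρ) T hF with h | h
  · right
    intro ℓ hℓ hℓT A hA σ hσ
    have hmem : σ ∈ detSubgroup ρ ι := by rw [h]; trivial
    rw [mem_detSubgroup, sub_eq_zero] at hmem
    have hdet : (mat ρ σ).det = (ℓ : O) := by
      rw [hmem, cycloO_frob ι hℓ (hne ℓ hℓT) A hA σ hσ]
    obtain ⟨e1, e2, e3, e4⟩ := ch_sub (mat ρ σ) (a ℓ) (ℓ : O)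
      (mat_relation ρ (hfrob ℓ hℓ hℓT A hA σ hσ))
    have ht : (mat ρ σ).trace - a ℓ = 0 := by
      by_contra ht
      rw [hdet, sub_self] at e4
      have z00 := (mul_eq_zero.mp e4).resolve_left ht
      have z01 := (mul_eq_zero.mp e1).resolve_left ht
      have hz : (mat ρ σ).det = 0 := by
        rw [Matrix.det_fin_two, z00, z01]
        ring
      rw [hmem] at hz
      exact (cycloO ι σ).ne_zero hz
    rw [charpoly_eq_mat, hdet, sub_eq_zero.mp ht]
  · left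
    intro σ
    have hmem : σ ∈ scalSubgroup ρ := by rw [h]; trivial
    rw [mem_scalSubgroup, isScal_iff] at hmem
    obtain ⟨c, hc⟩ := hmem
    exact ⟨c, eq_smul_one_of_mat ρ hc⟩

end Fermat.Agent.ESlib.PartD
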