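import Mathlib
import Fermat.Agent.ES.D.TwoDimA
import Fermat.Agent.ES.D.TwoDimB

/-!
# T-ES, Part D3b: from `P_ℓ(Frob_ℓ) = 0` to `charpoly(Frob_ℓ) = P_ℓ`
-/

set_option autoImplicit false

namespace Fermat.Agent.ESlib.PartD

open Polynomial

/-- **D3b**. A two-dimensional adic representation, unramified outside `T`, all of whose
Frobenius elements are killed by `X² - a_ℓ X + ℓ`, can be replaced by one whose Frobenius elements
have characteristic polynomial `X² - a_ℓ X + ℓ`. -/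
theorem exists_rep_charpoly (p : ℕ) [Fact p.Prime] (O : Type) [CommRing O] [IsDomain O]
    [IsDiscreteValuationRing O] [IsAdicComplete (IsLocalRing.maximalIdeal O) O]
    (hp : (p : O) ∈ IsLocalRing.maximalIdeal O) (T : Finset ℕ) (hpT : p ∈ T) (a : ℕ → O)
    (ρ : GaloisRepAdic O) (hunr : ∀ ℓ : ℕ, ℓ.Prime → ℓ ∉ T → ρ.IsUnramifiedAt ℓ)
    (hfrob : ∀ ℓ : ℕ, ℓ.Prime → ℓ ∉ T → ∀ A : ValuationSubring (AlgebraicClosure ℚ),
      A.LiesOverPrime ℓ → ∀ σ, A.IsFrobeniusAt σ ℓ →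
        ρ.ρ σ * ρ.ρ σ - a ℓ • ρ.ρ σ + (ℓ : O) • 1 = 0) :
    ∃ ρ' : GaloisRepAdic O, (∀ ℓ : ℕ, ℓ.Prime → ℓ ∉ T → ρ'.IsUnramifiedAt ℓ) ∧
      ∀ ℓ : ℕ, ℓ.Prime → ℓ ∉ T → ∀ A : ValuationSubring (AlgebraicClosure ℚ),
        A.LiesOverPrime ℓ → ∀ σ, A.IsFrobeniusAt σ ℓ →
          LinearMap.charpoly (ρ'.ρ σ) = X ^ 2 - C (a ℓ) * X + C ((ℓ : O)) := by
  rcases forall_scalar_or_charpoly p O hp T hpT a ρ hfrob with hsc | hch
  · exact exists_rep_of_scalar p O hp T hpT a ρ hunr hfrob hsc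
  · exact ⟨ρ, hunr, hch⟩

end Fermat.Agent.ESlib.PartD
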