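import Mathlib
import Fermat.Agent.ES.D.TateRep
import Fermat.Agent.ES.D.EigenRank
import Fermat.Agent.ES.D.Extend
import Fermat.Agent.ES.D.TwoDim

/-!
# T-ES, Part D: `TateDatum N p` implies the conclusion of S30 for `N`, `p`
-/

set_option autoImplicit false

namespace Fermat.Agent.ESlib.PartD

open IsLocalRing Polynomial

/-- VERSION A (no extension of the coefficient ring): a character of the full Hecke algebra with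
values in a complete DVR `O` has an attached representation over `O`. -/
theorem exists_rep_of_fullHecke {N : ℕ} [NeZero N] {p : ℕ} [Fact p.Prime] (D : TateDatum N p)
    (O : Type) [CommRing O] [IsDomain O] [IsDiscreteValuationRing O]
    [IsAdicComplete (maximalIdeal O) O] [CharZero O] (hp : (p : O) ∈ maximalIdeal O)
    (lam : FullHecke N →+* O) :
    ∃ ρ : GaloisRepAdic O,
      (∀ (ℓ : ℕ) (hℓ : ℓ.Prime) (hℓN : ¬ ℓ ∣ N), ℓ ≠ p →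
        ∀ A : ValuationSubring (AlgebraicClosure ℚ), A.LiesOverPrime ℓ →
          ∀ σ : AlgebraicClosure ℚ ≃ₐ[ℚ] AlgebraicClosure ℚ, A.IsFrobeniusAt σ ℓ →
            LinearMap.charpoly (ρ.ρ σ) =
              X ^ 2 - C (lam (CuspForm.heckeAlgebra.T hℓ hℓN (Set.notMem_empty ℓ))) * X
                + C ((ℓ : O))) ∧
      (∀ q : ℕ, q.Prime → ¬ q ∣ N → q ≠ p → ρ.IsUnramifiedAt q) := by
  classical
  have : Module.Finite ℤ (FullHecke N) := Fermat.Agent.S22b.finite_heckeAlgebra N 2 ∅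
  have hrank : Module.finrank O (eigenO D lam) = 2 := finrank_eigenO_eq_two D lam
  let T : Finset ℕ := insert p N.primeFactors
  have hT : ∀ ℓ : ℕ, ℓ.Prime → ℓ ∉ T → ¬ ℓ ∣ N ∧ ℓ ≠ p := by
    intro ℓ hℓ hℓT
    rw [Finset.mem_insert, not_or] at hℓT
    refine ⟨fun hdvd => hℓT.2 ?_, hℓT.1⟩
    exact Nat.mem_primeFactors.mpr ⟨hℓ, hdvd, NeZero.ne N⟩
  have hT' : ∀ ℓ : ℕ, ℓ.Prime → ¬ ℓ ∣ N → ℓ ≠ p → ℓ ∉ T := by
    intro ℓ _ hℓN hℓp hℓT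
    rcases Finset.mem_insert.mp hℓT with h | h
    · exact hℓp h
    · exact hℓN (Nat.dvd_of_mem_primeFactors h)
  let a : ℕ → O := fun ℓ =>
    if h : ℓ.Prime ∧ ¬ ℓ ∣ N then lam (CuspForm.heckeAlgebra.T h.1 h.2 (Set.notMem_empty ℓ)) else 0
  have ha : ∀ (ℓ : ℕ) (hℓ : ℓ.Prime) (hℓN : ¬ ℓ ∣ N),
      a ℓ = lam (CuspForm.heckeAlgebra.T hℓ hℓN (Set.notMem_empty ℓ)) := by
    intro ℓ hℓ hℓN
    exact dif_pos ⟨hℓ, hℓN⟩
  obtain ⟨ρ', hunr, hch⟩ := exists_rep_charpoly p O hp T (Finset.mem_insert_self p _) a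
    (repV D hp lam hrank)
    (fun ℓ hℓ hℓT => repV_unram D hp lam hrank hℓ (hT ℓ hℓ hℓT).1 (hT ℓ hℓ hℓT).2)
    (fun ℓ hℓ hℓT A hA σ hσ => by
      rw [ha ℓ hℓ (hT ℓ hℓ hℓT).1]
      exact repV_frob D hp lam hrank hℓ (hT ℓ hℓ hℓT).1 (hT ℓ hℓ hℓT).2 A hA σ hσ)
  refine ⟨ρ', fun ℓ hℓ hℓN hℓp A hA σ hσ => ?_, fun q hq hqN hqp => hunr q hq (hT' q hq hqN hqp)⟩
  rw [hch ℓ hℓ (hT' ℓ hℓ hℓN hℓp) A hA σ hσ, ha ℓ hℓ hℓN]

/-- **Part D**: a `TateDatum N p` implies the conclusion of S30 for `N` and `p`. -/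
theorem s30_of_tateDatum {N : ℕ} [NeZero N] {p : ℕ} [Fact p.Prime] (D : TateDatum N p)
    (S : Finset ℕ) (hpS : p ∈ S) (_hNS : ∀ q : ℕ, q.Prime → q ∣ N → q ∈ S)
    (𝒪' : Type) [CommRing 𝒪'] [IsDomain 𝒪'] [IsDiscreteValuationRing 𝒪']
    [IsAdicComplete (IsLocalRing.maximalIdeal 𝒪') 𝒪'] [Finite (IsLocalRing.ResidueField 𝒪')]
    [CharZero 𝒪'] (hp𝒪' : (p : 𝒪') ∈ IsLocalRing.maximalIdeal 𝒪')
    (χ : CuspForm.heckeAlgebra N 2 (↑S : Set ℕ) →+* 𝒪') :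
    ∃ (𝒪'' : Type) (_ : CommRing 𝒪'') (_ : IsDomain 𝒪'') (_ : IsDiscreteValuationRing 𝒪'')
      (_ : IsAdicComplete (IsLocalRing.maximalIdeal 𝒪'') 𝒪'')
      (_ : Finite (IsLocalRing.ResidueField 𝒪'')) (_ : CharZero 𝒪'')
      (_ : Algebra 𝒪' 𝒪'') (_ : Module.Finite 𝒪' 𝒪'') (_ : IsLocalHom (algebraMap 𝒪' 𝒪'')),
    Function.Injective (algebraMap 𝒪' 𝒪'') ∧
    ∃ ρ : GaloisRepAdic 𝒪'',
      (∀ (ℓ : ℕ) (hℓ : ℓ.Prime) (hℓN : ¬ ℓ ∣ N) (hℓS : ℓ ∉ (↑S : Set ℕ)),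
        ∀ A : ValuationSubring (AlgebraicClosure ℚ), A.LiesOverPrime ℓ →
          ∀ σ : AlgebraicClosure ℚ ≃ₐ[ℚ] AlgebraicClosure ℚ, A.IsFrobeniusAt σ ℓ →
            LinearMap.charpoly (ρ.ρ σ) =
              X ^ 2 - C (algebraMap 𝒪' 𝒪'' (χ (CuspForm.heckeAlgebra.T hℓ hℓN hℓS))) * X
                + C ((ℓ : 𝒪''))) ∧
      (∀ q : ℕ, q.Prime → ¬ q ∣ N → q ≠ p → ρ.IsUnramifiedAt q) := by
  obtain ⟨O'', i1, i2, i3, i4, i5, i6, i7, i8, i9, hinj, lam, hlam⟩ :=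
    exists_extend N (↑S : Set ℕ) 𝒪' χ
  have hp'' : (p : O'') ∈ maximalIdeal O'' := by
    have h1 : (p : O'') = algebraMap 𝒪' O'' (p : 𝒪') := by rw [map_natCast]
    rw [h1]
    exact map_nonunit (algebraMap 𝒪' O'') _ hp𝒪'
  obtain ⟨ρ, hch, hunr⟩ := exists_rep_of_fullHecke D O'' hp'' lam
  refine ⟨O'', i1, i2, i3, i4, i5, i6, i7, i8, i9, hinj, ρ, ?_, hunr⟩
  intro ℓ hℓ hℓN hℓS A hA σ hσ
  have hℓp : ℓ ≠ p := by
    rintro rfl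
    exact hℓS (Finset.mem_coe.mpr hpS)
  rw [hch ℓ hℓ hℓN hℓp A hA σ hσ, ← hlam]
  rfl

end Fermat.Agent.ESlib.PartD
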