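import Mathlib

/-!
# T-ES, Part D5b: residue fields of the ring of all algebraic integers are algebraically closed
-/

set_option autoImplicit false

namespace Fermat.Agent.ESlib.PartD

open Polynomial

local notation "Zbar" => integralClosure ℤ ℂ

/-- a monic polynomial of positive degree over the algebraic integers has a root there -/
lemma exists_root_Zbar (q : Zbar[X]) (hq : q.Monic) (hdeg : q.natDegree ≠ 0) :
    ∃ z : Zbar, q.eval z = 0 := by
  have hdeg' : (q.map (algebraMap Zbar ℂ)).degree ≠ 0 := by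
    rw [hq.degree_map, degree_eq_natDegree hq.ne_zero]
    exact_mod_cast hdeg
  obtain ⟨z, hz⟩ := IsAlgClosed.exists_root _ hdeg'
  have h1 : IsIntegral Zbar z := ⟨q, hq, by rwa [IsRoot.def, eval_map] at hz⟩
  have h2 : IsIntegral ℤ z := isIntegral_trans z h1
  refine ⟨⟨z, h2⟩, ?_⟩
  apply Subtype.val_injective
  rw [IsRoot.def, eval_map] at hz
  have h3 : ((q.eval (⟨z, h2⟩ : Zbar) : Zbar) : ℂ) = q.eval₂ (algebraMap Zbar ℂ) z := by
    have := Polynomial.hom_eval₂ q (RingHom.id Zbar) (algebraMap Zbar ℂ) (⟨z, h2⟩ : Zbar)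
    simpa [eval₂_id] using this
  rw [h3, hz]
  rfl

theorem isAlgClosed_quotient_Zbar (𝔪 : Ideal Zbar) [h𝔪 : 𝔪.IsMaximal] :
    letI := Ideal.Quotient.field 𝔪
    IsAlgClosed (Zbar ⧸ 𝔪) := by
  let _ := Ideal.Quotient.field 𝔪
  apply IsAlgClosed.of_exists_root
  intro f hf hirr
  have hl : f ∈ lifts (Ideal.Quotient.mk 𝔪) := by
    rw [mem_lifts]
    exact map_surjective _ Ideal.Quotient.mk_surjective f
  obtain ⟨q, hqf, hqdeg, hq⟩ := lifts_and_natDegree_eq_and_monic hl hf
  obtain ⟨z, hz⟩ := exists_root_Zbar q hq (by rw [hqdeg]; exact hirr.natDegree_pos.ne')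
  refine ⟨Ideal.Quotient.mk 𝔪 z, ?_⟩
  rw [← hqf, eval_map, eval₂_hom, hz, map_zero]

theorem ker_isMaximal_of_isIntegral_int {R k : Type*} [CommRing R] [Algebra.IsIntegral ℤ R]
    [Field k] (p : ℕ) (hp : p.Prime) [CharP k p]
    (φ : R →+* k) : (RingHom.ker φ).IsMaximal := by
  have : Fact p.Prime := ⟨hp⟩
  have : (RingHom.ker φ).IsPrime := RingHom.ker_isPrime φ
  apply Ideal.isMaximal_of_isIntegral_of_isMaximal_comap (R := ℤ)
  have h1 : (RingHom.ker φ).comap (algebraMap ℤ R) = Ideal.span {(p : ℤ)} := by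
    rw [RingHom.comap_ker, ← CharP.ker_intAlgebraMap_eq_span (R := k) p]
    congr 1
    exact RingHom.ext_int _ _
  rw [h1]
  exact Int.ideal_span_isMaximal_of_prime p

end Fermat.Agent.ESlib.PartD
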