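import Mathlib
import Fermat.Prelude.Def_CuspForm_HeckeGaloisRepDatum
import Fermat.Agent.ES.D.Eigen
import Fermat.Agent.ES.D.ResClosed
import Fermat.Agent.ES.D.Lift

/-!
# T-ES, Part D5: S29 from the statement of S30
-/

set_option autoImplicit false

namespace Fermat.Agent.ESlib.PartD

open Polynomial IsLocalRing

local notation "Zbar" => integralClosure ℤ ℂ
local notation "GQ'" => (AlgebraicClosure ℚ ≃ₐ[ℚ] AlgebraicClosure ℚ)

/-- The statement of S30. -/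
def StatementS30 : Prop :=
    ∀ (p : ℕ) [Fact p.Prime] (N : ℕ) [NeZero N] (S : Finset ℕ)
      (_hpS : p ∈ S) (_hNS : ∀ q : ℕ, q.Prime → q ∣ N → q ∈ S)
      (𝒪' : Type) [CommRing 𝒪'] [IsDomain 𝒪'] [IsDiscreteValuationRing 𝒪']
      [IsAdicComplete (IsLocalRing.maximalIdeal 𝒪') 𝒪'] [Finite (IsLocalRing.ResidueField 𝒪')]
      [CharZero 𝒪'] (_hp𝒪' : (p : 𝒪') ∈ IsLocalRing.maximalIdeal 𝒪')
      (χ : CuspForm.heckeAlgebra N 2 (↑S : Set ℕ) →+* 𝒪'),
      ∃ (𝒪'' : Type) (_ : CommRing 𝒪'') (_ : IsDomain 𝒪'') (_ : IsDiscreteValuationRing 𝒪'')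
        (_ : IsAdicComplete (IsLocalRing.maximalIdeal 𝒪'') 𝒪'')
        (_ : Finite (IsLocalRing.ResidueField 𝒪'')) (_ : CharZero 𝒪'')
        (_ : Algebra 𝒪' 𝒪'') (_ : Module.Finite 𝒪' 𝒪'') (_ : IsLocalHom (algebraMap 𝒪' 𝒪'')),
      Function.Injective (algebraMap 𝒪' 𝒪'') ∧
      ∃ ρ : GaloisRepAdic 𝒪'',
        (∀ (ℓ : ℕ) (hℓ : ℓ.Prime) (hℓN : ¬ ℓ ∣ N) (hℓS : ℓ ∉ (↑S : Set ℕ)),
          ∀ A : ValuationSubring (AlgebraicClosure ℚ), A.LiesOverPrime ℓ →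
            ∀ σ : AlgebraicClosure ℚ ≃ₐ[ℚ] AlgebraicClosure ℚ, A.IsFrobeniusAt σ ℓ →
              LinearMap.charpoly (ρ.ρ σ) =
                X ^ 2 - C (algebraMap 𝒪' 𝒪'' (χ (CuspForm.heckeAlgebra.T hℓ hℓN hℓS))) * X
                  + C ((ℓ : 𝒪''))) ∧
        (∀ q : ℕ, q.Prime → ¬ q ∣ N → q ≠ p → ρ.IsUnramifiedAt q)

lemma charpoly_baseChangeAlong {k k' : Type} [Field k] [Field k'] (j : k →+* k')
    (ρ : ResidualGaloisRep k) (σ : GQ') :
    LinearMap.charpoly ((ρ.baseChangeAlong j).ρ σ) = (LinearMap.charpoly (ρ.ρ σ)).map j := by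
  let _ : Algebra k k' := j.toAlgebra
  exact LinearMap.charpoly_baseChange (A := k') (ρ.ρ σ)

lemma charpoly_residual {A : Type} [CommRing A] [IsLocalRing A] (ρ : GaloisRepAdic A) (σ : GQ') :
    LinearMap.charpoly (ρ.residual.ρ σ) = (LinearMap.charpoly (ρ.ρ σ)).map (residue A) :=
  LinearMap.charpoly_baseChange (A := ResidueField A) (ρ.ρ σ)

lemma baseChangeAlong_eq_one {k k' : Type} [Field k] [Field k'] (j : k →+* k')
    (ρ : ResidualGaloisRep k) {σ : GQ'} (h : ρ.ρ σ = 1) : (ρ.baseChangeAlong j).ρ σ = 1 := by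
  let _ : Algebra k k' := j.toAlgebra
  show (ρ.ρ σ).baseChange k' = 1
  rw [h, LinearMap.baseChange_one]

lemma residual_eq_one {A : Type} [CommRing A] [IsLocalRing A] (ρ : GaloisRepAdic A) {σ : GQ'}
    (h : ρ.ρ σ = 1) : ρ.residual.ρ σ = 1 := by
  show (ρ.ρ σ).baseChange (ResidueField A) = 1
  rw [h, LinearMap.baseChange_one]

lemma exists_embedding_over {k0 k2 K1 : Type*} [Field k0] [Field k2] [Field K1] [IsAlgClosed K1]
    [Finite k2] (α : k0 →+* k2) (β : k0 →+* K1) : ∃ j0 : k2 →+* K1, ∀ x, j0 (α x) = β x := by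
  let _ : Algebra k0 k2 := α.toAlgebra
  let _ : Algebra k0 K1 := β.toAlgebra
  have : Module.Finite k0 k2 := Module.Finite.of_finite
  have : Algebra.IsAlgebraic k0 k2 := Algebra.IsAlgebraic.of_finite _ _
  let j0 : k2 →ₐ[k0] K1 := IsAlgClosed.lift
  exact ⟨j0.toRingHom, fun x => j0.commutes x⟩

theorem s29_of_s30 (h30 : StatementS30)
    {N : ℕ} {g : CuspForm (CongruenceSubgroup.Gamma0 N) 2} (hg : g.IsNormalizedEigenform)
    {p : ℕ} (hp : p.Prime) {k : Type} [Field k] [CharP k p]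
    (φ : integralClosure ℤ ℂ →+* k) :
    ∃ ρ : ResidualGaloisRep k, ρ.IsAttachedTo g φ ∧
      ∀ ℓ : ℕ, ℓ.Prime → ¬ ℓ ∣ N * p → ρ.IsUnramifiedAt ℓ := by
  rcases Nat.eq_zero_or_pos N with rfl | hN
  · refine ⟨{ V := Fin 2 → k, finrank_eq := by simp, ρ := 1,
              factorsThroughFiniteLevel := ⟨⊥, inferInstance, fun _ _ => rfl⟩ }, ?_, ?_⟩
    · intro ℓ _ h
      exact absurd (dvd_zero ℓ) h
    · intro ℓ _ h
      exact absurd (by simp) h
  have : NeZero N := ⟨hN.ne'⟩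
  have : Fact p.Prime := ⟨hp⟩
  set S : Finset ℕ := insert p N.primeFactors with hS
  have hpS : p ∈ S := Finset.mem_insert_self _ _
  have hNS : ∀ q : ℕ, q.Prime → q ∣ N → q ∈ S := fun q hq hqN =>
    Finset.mem_insert_of_mem (Nat.mem_primeFactors.mpr ⟨hq, hqN, hN.ne'⟩)
  have hfin : Module.Finite ℤ (CuspForm.heckeAlgebra N 2 (S : Set ℕ)) :=
    Fermat.Agent.S22b.finite_heckeAlgebra N 2 S
  have hint : Algebra.IsIntegral ℤ (CuspForm.heckeAlgebra N 2 (S : Set ℕ)) :=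
    Algebra.IsIntegral.of_finite ℤ _
  set χg := eigenChar hg (S : Set ℕ) with hχg
  set θ : CuspForm.heckeAlgebra N 2 (S : Set ℕ) →+* k := φ.comp χg with hθ
  have h𝔪 : (RingHom.ker θ).IsMaximal := ker_isMaximal_of_isIntegral_int p hp θ
  have hp𝔪 : ((p : ℕ) : CuspForm.heckeAlgebra N 2 (S : Set ℕ)) ∈ RingHom.ker θ := by
    rw [RingHom.mem_ker, map_natCast, CharP.cast_eq_zero]
  obtain ⟨O', i1, i2, i3, i4, i5, i6, χ, hχ⟩ := exists_dvr_point p _ (RingHom.ker θ) hp𝔪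
  have hpO' : ((p : ℕ) : O') ∈ maximalIdeal O' := by
    have h1 : ((p : ℕ) : CuspForm.heckeAlgebra N 2 (S : Set ℕ)) ∈ (maximalIdeal O').comap χ :=
      hχ ▸ hp𝔪
    rwa [Ideal.mem_comap, map_natCast] at h1
  obtain ⟨O'', j1, j2, j3, j4, j5, j6, j7, j8, j9, -, ρ, hchar, hunr⟩ :=
    h30 p N S hpS hNS O' hpO' χ
  -- the three fields
  let _ : Field (CuspForm.heckeAlgebra N 2 (S : Set ℕ) ⧸ RingHom.ker θ) :=
    Ideal.Quotient.field _
  have hφmax : (RingHom.ker φ).IsMaximal := ker_isMaximal_of_isIntegral_int p hp φ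
  let _ : Field (Zbar ⧸ RingHom.ker φ) := Ideal.Quotient.field _
  have hclosed : IsAlgClosed (Zbar ⧸ RingHom.ker φ) := isAlgClosed_quotient_Zbar _
  let α : (CuspForm.heckeAlgebra N 2 (S : Set ℕ) ⧸ RingHom.ker θ) →+* ResidueField O'' :=
    Ideal.Quotient.lift _ ((residue O'').comp ((algebraMap O' O'').comp χ)) (by
      intro t ht
      have h1 : χ t ∈ maximalIdeal O' := by
        have : t ∈ (maximalIdeal O').comap χ := hχ ▸ ht
        exact this
      have h2 : algebraMap O' O'' (χ t) ∈ maximalIdeal O'' := map_nonunit _ _ h1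
      exact (residue_eq_zero_iff _).mpr h2)
  let β : (CuspForm.heckeAlgebra N 2 (S : Set ℕ) ⧸ RingHom.ker θ) →+* (Zbar ⧸ RingHom.ker φ) :=
    Ideal.Quotient.lift _ ((Ideal.Quotient.mk (RingHom.ker φ)).comp χg) (by
      intro t ht
      exact Ideal.Quotient.eq_zero_iff_mem.mpr ht)
  obtain ⟨j0, hj0⟩ := exists_embedding_over α β
  let j : ResidueField O'' →+* k := (RingHom.kerLift φ).comp j0
  have hj : ∀ t : CuspForm.heckeAlgebra N 2 (S : Set ℕ),
      j (residue O'' (algebraMap O' O'' (χ t))) = φ (χg t) := by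
    intro t
    have h1 : residue O'' (algebraMap O' O'' (χ t)) = α (Ideal.Quotient.mk _ t) := rfl
    have h3 : β (Ideal.Quotient.mk _ t) = Ideal.Quotient.mk (RingHom.ker φ) (χg t) := rfl
    show RingHom.kerLift φ (j0 _) = _
    rw [h1, hj0, h3, RingHom.kerLift_mk]
  refine ⟨ρ.residual.baseChangeAlong j, ?_, ?_⟩
  · intro ℓ hℓ hℓN hℓk A hA σ hσ
    have hℓp : ℓ ≠ p := by
      rintro rfl
      exact hℓk (CharP.cast_eq_zero k ℓ)
    have hℓS : ℓ ∉ (S : Set ℕ) := by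
      intro h
      rcases Finset.mem_insert.mp (Finset.mem_coe.mp h) with h | h
      · exact hℓp h
      · exact hℓN (Nat.mem_primeFactors.mp h).2.1
    refine ⟨χg (CuspForm.heckeAlgebra.T hℓ hℓN hℓS), coe_eigenChar_T hg _ hℓ hℓN hℓS, ?_⟩
    rw [charpoly_baseChangeAlong, charpoly_residual, hchar ℓ hℓ hℓN hℓS A hA σ hσ]
    simp only [Polynomial.map_add, Polynomial.map_sub, Polynomial.map_mul, Polynomial.map_pow,
      Polynomial.map_X, Polynomial.map_C, map_natCast, Polynomial.map_natCast, hj]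
  · intro ℓ hℓ hℓNp A hA σ hσ
    have hℓN : ¬ ℓ ∣ N := fun h => hℓNp (Dvd.dvd.mul_right h p)
    have hℓp : ℓ ≠ p := by
      rintro rfl
      exact hℓNp (Dvd.intro_left N rfl)
    exact baseChangeAlong_eq_one j _ (residual_eq_one ρ (hunr ℓ hℓ hℓN hℓp A hA σ hσ))

end Fermat.Agent.ESlib.PartD
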