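import Mathlib
import Fermat.Prelude.Def_FreyPackage_EigenformResidualAttachment
import Fermat.Prelude.Def_GaloisRep_Residual
import Fermat.Agent.S13.Count

/-!
# T-ES, Part D6: S42 from the statement of S29
-/

set_option autoImplicit false

namespace Fermat.Agent.ESlib.PartD

open WeierstrassCurve WeierstrassCurve.Affine WeierstrassCurve.Affine.Point Polynomial
open Fermat.Agent.S05lib Fermat.Agent.S13lib

local notation "Kb" => AlgebraicClosure ℚ
local notation "GQ'" => (AlgebraicClosure ℚ ≃ₐ[ℚ] AlgebraicClosure ℚ)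

/-- The statement of S29. -/
def StatementS29 : Prop :=
  ∀ {N : ℕ} {g : CuspForm (CongruenceSubgroup.Gamma0 N) 2} (_ : g.IsNormalizedEigenform)
    {p : ℕ} (_ : p.Prime) {k : Type} [Field k] [CharP k p]
    (φ : integralClosure ℤ ℂ →+* k),
    ∃ ρ : ResidualGaloisRep k, ρ.IsAttachedTo g φ ∧
      ∀ ℓ : ℕ, ℓ.Prime → ¬ ℓ ∣ N * p → ρ.IsUnramifiedAt ℓ

/-- the `y`-coordinate -/
noncomputable def yCoord {P : FreyPackage} : (P.freyCurve⁄Kb).Point → Kb
  | .zero => 0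
  | .some _ y _ => y

lemma isIntegral_Qb (x : Kb) : IsIntegral ℚ x :=
  ((AlgebraicClosure.isAlgebraic ℚ).isAlgebraic x).isIntegral

lemma exists_level_frey (P : FreyPackage) :
    ∃ F : IntermediateField ℚ Kb, FiniteDimensional ℚ F ∧
    ∀ σ : GQ', (∀ x ∈ F, σ x = x) →
      ∀ x : Submodule.torsionBy ℤ (P.freyCurve⁄Kb).Point P.p, σ • x = x := by
  have := frey_torsion_finite P
  set S : Set Kb := Set.range (fun x : Submodule.torsionBy ℤ (P.freyCurve⁄Kb).Point P.p =>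
      Xc (P.freyCurve⁄Kb) 0 x.1) ∪
    Set.range (fun x : Submodule.torsionBy ℤ (P.freyCurve⁄Kb).Point P.p => yCoord x.1) with hS
  have : Finite S := by
    rw [hS]
    exact Set.finite_coe_iff.mpr ((Set.finite_range _).union (Set.finite_range _))
  refine ⟨IntermediateField.adjoin ℚ S,
    IntermediateField.finiteDimensional_adjoin (fun x _ => isIntegral_Qb x), ?_⟩
  intro σ hσ x
  apply Subtype.ext
  have h0 : (σ • x).1 = σ • x.1 := rfl
  rw [h0]
  have h1 := hσ _ (IntermediateField.subset_adjoin ℚ S (Or.inl ⟨x, rfl⟩))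
  have h2 := hσ _ (IntermediateField.subset_adjoin ℚ S (Or.inr ⟨x, rfl⟩))
  rcases hx : x.1 with _ | ⟨a, b, hab⟩
  · rfl
  · have e : σ • (Point.some a b hab : (P.freyCurve⁄Kb).Point) = Point.some (σ a) (σ b) _ :=
      Point.map_some (W' := P.freyCurve) σ.toAlgHom hab
    simp only [hx, Xc_some, sub_zero, yCoord] at h1 h2
    rw [e]
    simp only [h1, h2]

/-- trace and determinant from a quadratic characteristic polynomial -/
lemma trace_det_of_charpoly {K V : Type*} [Field K] [AddCommGroup V] [Module K V]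
    [Module.Finite K V] (h2 : Module.finrank K V = 2) (f : Module.End K V) (a b : K)
    (h : LinearMap.charpoly f = X ^ 2 - C a * X + C b) :
    LinearMap.trace K V f = a ∧ LinearMap.det f = b := by
  classical
  have b0 := Module.finBasisOfFinrankEq K V h2
  have h3 : (LinearMap.toMatrix b0 b0 f).charpoly = X ^ 2 - C a * X + C b := by
    rw [LinearMap.charpoly_toMatrix, h]
  constructor
  · rw [LinearMap.trace_eq_matrix_trace K b0, Matrix.trace_eq_neg_charpoly_coeff, h3]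
    simp [coeff_X_pow, coeff_C]
  · rw [← LinearMap.det_toMatrix b0, Matrix.det_eq_sign_charpoly_coeff, h3]
    simp [coeff_X_pow, coeff_X, coeff_C]

theorem s42_of_s29 (h29 : StatementS29) (P : FreyPackage) :
    ∀ M : ℕ, 0 < M → P.EigenformResidualAttachmentAt M := by
  intro M hM g hg 𝔪 h𝔪 hp𝔪
  let _ : Field (integralClosure ℤ ℂ ⧸ 𝔪) := Ideal.Quotient.field 𝔪
  have hp0 : ((P.p : ℕ) : integralClosure ℤ ℂ ⧸ 𝔪) = 0 := by
    have := Ideal.Quotient.eq_zero_iff_mem.mpr hp𝔪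
    simpa using this
  have : CharP (integralClosure ℤ ℂ ⧸ 𝔪) P.p :=
    ringChar.of_eq (CharP.ringChar_of_prime_eq_zero P.pp hp0)
  let _ : Algebra (ZMod P.p) (integralClosure ℤ ℂ ⧸ 𝔪) := ZMod.algebra _ P.p
  obtain ⟨ρ, hatt, -⟩ := h29 hg P.pp (Ideal.Quotient.mk 𝔪)
  obtain ⟨L1, hL1, h1⟩ := ρ.factorsThroughFiniteLevel
  obtain ⟨L2, hL2, h2⟩ := exists_level_frey P
  have : Algebra.IsAlgebraic ℚ Kb := AlgebraicClosure.isAlgebraic ℚ
  have : IsAlgClosure ℚ Kb := ⟨inferInstance, inferInstance⟩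
  have : Normal ℚ Kb := IsAlgClosure.normal ℚ Kb
  let F : IntermediateField ℚ Kb :=
    IntermediateField.normalClosure ℚ (L1 ⊔ L2 : IntermediateField ℚ Kb) Kb
  have hLF : (L1 ⊔ L2 : IntermediateField ℚ Kb) ≤ F := IntermediateField.le_normalClosure _
  have : FiniteDimensional ℚ (L1 ⊔ L2 : IntermediateField ℚ Kb) :=
    IntermediateField.finiteDimensional_sup L1 L2
  have : FiniteDimensional ℚ F := normalClosure.is_finiteDimensional ℚ _ Kb
  have : Normal ℚ F := normalClosure.normal ℚ _ Kb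
  have hker : ∀ σ : GQ', σ ∈ (AlgEquiv.restrictNormalHom (F := ℚ) (K₁ := Kb) F).ker →
      ∀ x ∈ F, σ x = x := by
    intro σ hσ x hx
    have h3 : AlgEquiv.restrictNormalHom (F := ℚ) (K₁ := Kb) F σ ⟨x, hx⟩ = ⟨x, hx⟩ := by
      rw [MonoidHom.mem_ker.mp hσ]; rfl
    have h4 := AlgEquiv.restrictNormal_commutes σ F ⟨x, hx⟩
    have h5 : AlgEquiv.restrictNormal σ F ⟨x, hx⟩ = ⟨x, hx⟩ := h3
    rw [h5] at h4
    exact h4.symm
  refine ⟨_, inferInstance, inferInstance, ρ.V, inferInstance, inferInstance, ρ.ρ,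
    Ideal.Quotient.mk 𝔪, F, inferInstance, ⟨⟩, ⟨⟩, inferInstance, inferInstance, ?_,
    ρ.finrank_eq, ?_, ?_, ?_⟩
  · rw [Ideal.mk_ker]
  · intro σ hσ
    have hx := hker σ hσ
    refine ⟨?_, ?_⟩
    · refine MonoidHom.mem_ker.mpr (LinearMap.ext fun x => ?_)
      have h3 := h2 σ (fun x hx' => hx x (hLF (le_sup_right (a := L1) hx')))
      exact h3 x
    · exact MonoidHom.mem_ker.mpr (h1 σ (fun x hx' => hx x (hLF (le_sup_left (b := L2) hx'))))
  · intro ℓ hℓ hℓM hℓp A hA τ hτ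
    have hℓ0 : ((ℓ : ℕ) : integralClosure ℤ ℂ ⧸ 𝔪) ≠ 0 := by
      intro h0
      have := (CharP.cast_eq_zero_iff (integralClosure ℤ ℂ ⧸ 𝔪) P.p ℓ).mp h0
      exact hℓp ((Nat.prime_dvd_prime_iff_eq P.pp hℓ).mp this).symm
    obtain ⟨a, ha, hc⟩ := hatt ℓ hℓ hℓM hℓ0 A hA τ hτ
    exact ⟨a, ha, (trace_det_of_charpoly ρ.finrank_eq _ _ _ hc).1⟩
  · intro ℓ hℓ hℓM hℓp A hA τ hτ
    have hℓ0 : ((ℓ : ℕ) : integralClosure ℤ ℂ ⧸ 𝔪) ≠ 0 := by
      intro h0
      have := (CharP.cast_eq_zero_iff (integralClosure ℤ ℂ ⧸ 𝔪) P.p ℓ).mp h0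
      exact hℓp ((Nat.prime_dvd_prime_iff_eq P.pp hℓ).mp this).symm
    obtain ⟨a, ha, hc⟩ := hatt ℓ hℓ hℓM hℓ0 A hA τ hτ
    exact (trace_det_of_charpoly ρ.finrank_eq _ _ _ hc).2

end Fermat.Agent.ESlib.PartD
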